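import Fermat.Agent.S55.Level.LES

/-!
# Hom modules and function modules with the conjugation action (block [F] of S55)

* `LvHom Y X`: the additive group `Y →+ X` with `(g • φ) y = g • φ (g⁻¹ • y)`;
* `LvFun T X`: the additive group `T → X` for a `G`-set `T` with `(g • f) t = g • f (g⁻¹ • t)`;
* smoothness, functoriality, `Hom(Y, -)` of a short exact sequence for `Y` free;
* Shapiro-type vanishing: a 1-cocycle `G → (T → X)` whose restrictions to the stabilisers are
  coboundaries is a coboundary.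
-/

set_option autoImplicit false

namespace Fermat.Agent.S55

open groupCohomology

/-- `Hom(Y, X)` as a type synonym carrying the conjugation action. -/
def LvHom (Y X : Type*) [AddCommGroup Y] [AddCommGroup X] : Type _ := Y →+ X

namespace LvHom

section Basic

variable {Y X : Type*} [AddCommGroup Y] [AddCommGroup X]

instance : AddCommGroup (LvHom Y X) := inferInstanceAs (AddCommGroup (Y →+ X))

instance : FunLike (LvHom Y X) Y X := inferInstanceAs (FunLike (Y →+ X) Y X)

instance : AddMonoidHomClass (LvHom Y X) Y X := inferInstanceAs (AddMonoidHomClass (Y →+ X) Y X)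

/-- The identity `(Y →+ X) ≃+ LvHom Y X`. -/
def of : (Y →+ X) ≃+ LvHom Y X := AddEquiv.refl _

/-- The identity `LvHom Y X ≃+ (Y →+ X)`. -/
def toHom : LvHom Y X ≃+ (Y →+ X) := AddEquiv.refl _

@[simp] lemma of_apply (φ : Y →+ X) (y : Y) : (of φ) y = φ y := rfl
@[simp] lemma toHom_apply (φ : LvHom Y X) (y : Y) : (toHom φ) y = φ y := rfl
@[simp] lemma toHom_of (φ : Y →+ X) : toHom (of φ) = φ := rfl
@[simp] lemma of_toHom (φ : LvHom Y X) : of (toHom φ) = φ := rfl

@[ext] lemma ext {φ ψ : LvHom Y X} (h : ∀ y, φ y = ψ y) : φ = ψ := DFunLike.ext φ ψ h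

@[simp] lemma add_apply (φ ψ : LvHom Y X) (y : Y) : (φ + ψ) y = φ y + ψ y := rfl
@[simp] lemma zero_apply (y : Y) : (0 : LvHom Y X) y = 0 := rfl
@[simp] lemma neg_apply (φ : LvHom Y X) (y : Y) : (-φ) y = -φ y := rfl
@[simp] lemma sub_apply (φ ψ : LvHom Y X) (y : Y) : (φ - ψ) y = φ y - ψ y := rfl

end Basic

section Action

variable {G : Type*} [Group G] {Y X : Type*} [AddCommGroup Y] [AddCommGroup X]
  [DistribMulAction G Y] [DistribMulAction G X]

instance : DistribMulAction G (LvHom Y X) where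
  smul g φ := of
    { toFun := fun y => g • φ (g⁻¹ • y)
      map_zero' := by rw [smul_zero, map_zero, smul_zero]
      map_add' := fun y y' => by rw [smul_add, map_add, smul_add] }
  one_smul φ := by
    ext y
    show (1 : G) • φ ((1 : G)⁻¹ • y) = φ y
    rw [inv_one, one_smul, one_smul]
  mul_smul g h φ := by
    ext y
    show (g * h) • φ ((g * h)⁻¹ • y) = g • (h • φ (h⁻¹ • (g⁻¹ • y)))
    rw [mul_inv_rev, mul_smul, mul_smul]
  smul_zero g := by
    ext y
    show g • (0 : LvHom Y X) (g⁻¹ • y) = 0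
    rw [zero_apply, smul_zero]
  smul_add g φ ψ := by
    ext y
    show g • (φ + ψ) (g⁻¹ • y) = g • φ (g⁻¹ • y) + g • ψ (g⁻¹ • y)
    rw [add_apply, smul_add]

@[simp] lemma smul_apply (g : G) (φ : LvHom Y X) (y : Y) : (g • φ) y = g • φ (g⁻¹ • y) := rfl

lemma smul_eq_iff (g : G) (φ : LvHom Y X) : g • φ = φ ↔ ∀ y, φ (g • y) = g • φ y := by
  constructor
  · intro h y
    have := congrArg (fun ψ : LvHom Y X => ψ (g • y)) h
    simp only [smul_apply, inv_smul_smul] at this
    exact this.symm
  · intro h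
    ext y
    rw [smul_apply, ← h, smul_inv_smul]

/-- The invariants of `LvHom Y X` are the equivariant homomorphisms. -/
lemma mem_lvH0_iff (φ : LvHom Y X) :
    φ ∈ lvH0 (G := G) (LvHom Y X) ↔ ∀ (g : G) (y : Y), φ (g • y) = g • φ y := by
  constructor
  · intro h g
    exact (smul_eq_iff g φ).1 (h g)
  · intro h g
    exact (smul_eq_iff g φ).2 (h g)

/-- `LvHom Y X` is smooth if `Y` is a finitely generated group and `Y`, `X` are smooth. -/
theorem isSmooth (L : LevelSys G) (hY : L.IsSmooth Y) (hX : L.IsSmooth X) (hfg : AddGroup.FG Y) :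
    L.IsSmooth (LvHom Y X) := by
  intro φ
  obtain ⟨s, hs, hsfin⟩ := (AddGroup.fg_iff).1 hfg
  obtain ⟨U₀, hU₀⟩ := L.nonempty
  obtain ⟨U, hU, -, -, hUs⟩ := hY.exists_level L hsfin hU₀
  obtain ⟨V, hV, hVU, -, hVs⟩ := hX.exists_level L (s := φ '' s) (hsfin.image _) hU
  refine ⟨V, hV, fun u hu => ?_⟩
  have h1 : Set.EqOn (toHom (u • φ)) (toHom φ) s := by
    intro y hy
    show u • φ (u⁻¹ • y) = φ y
    rw [hUs u⁻¹ (U.inv_mem (hVU hu)) y hy]
    exact hVs u hu _ ⟨y, hy, rfl⟩
  have h2 : toHom (u • φ) = toHom φ := AddMonoidHom.eq_of_eqOn_dense hs h1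
  exact h2

end Action

end LvHom

/-- Lifting homomorphisms out of a finitely generated free abelian group along a surjection. -/
lemma lvLift_of_free {Y B C : Type*} [AddCommGroup Y] [AddCommGroup B] [AddCommGroup C] {n : ℕ}
    (e : Y ≃+ (Fin n → ℤ)) (π : B →+ C) (hπ : Function.Surjective π) (g : Y →+ C) :
    ∃ g' : Y →+ B, ∀ y, π (g' y) = g y := by
  obtain ⟨h, hh⟩ := Module.projective_lifting_property (P := Fin n → ℤ) π.toIntLinearMap
    (g.comp e.symm.toAddMonoidHom).toIntLinearMap hπ
  refine ⟨h.toAddMonoidHom.comp e.toAddMonoidHom, fun y => ?_⟩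
  have := congrArg (fun l => l (e y)) hh
  simpa using this

/-- A group isomorphic to `ℤⁿ` is finitely generated. -/
lemma lvFG_of_free {Y : Type*} [AddCommGroup Y] {n : ℕ} (e : Y ≃+ (Fin n → ℤ)) : AddGroup.FG Y := by
  have h : AddGroup.FG (Fin n → ℤ) := by
    rw [← Module.Finite.iff_addGroup_fg]
    infer_instance
  exact AddGroup.fg_of_surjective (f := e.symm.toAddMonoidHom) e.symm.surjective

namespace LvHom

section Functoriality

variable {Y Y' X X' : Type*} [AddCommGroup Y] [AddCommGroup Y'] [AddCommGroup X] [AddCommGroup X']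

/-- Post-composition. -/
def postcomp (k : X →+ X') : LvHom Y X →+ LvHom Y X' where
  toFun φ := of (k.comp (toHom φ))
  map_zero' := by
    ext y
    show k ((0 : LvHom Y X) y) = 0
    rw [zero_apply, map_zero]
  map_add' φ ψ := by
    ext y
    show k ((φ + ψ) y) = k (φ y) + k (ψ y)
    rw [add_apply, map_add]

@[simp] lemma postcomp_apply (k : X →+ X') (φ : LvHom Y X) (y : Y) :
    postcomp k φ y = k (φ y) := rfl

/-- Pre-composition. -/
def precomp (f : Y' →+ Y) : LvHom Y X →+ LvHom Y' X where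
  toFun φ := of ((toHom φ).comp f)
  map_zero' := rfl
  map_add' _ _ := rfl

@[simp] lemma precomp_apply (f : Y' →+ Y) (φ : LvHom Y X) (y : Y') :
    precomp f φ y = φ (f y) := rfl

variable {G : Type*} [Group G] {H : Type*} [Group H]
  [DistribMulAction G Y] [DistribMulAction G X] [DistribMulAction H Y'] [DistribMulAction H X']

/-- Functoriality of `LvHom` in all variables, as a morphism of level cohomology. -/
def lvMor (L : LevelSys G) (LH : LevelSys H) (r : H →* G)
    (hr : ∀ U ∈ L.levels, ∃ V ∈ LH.levels, V ≤ U.comap r)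
    (f : Y' →+ Y) (hf : ∀ (h : H) (y : Y'), f (h • y) = r h • f y)
    (k : X →+ X') (hk : ∀ (h : H) (x : X), k (r h • x) = h • k x) :
    LvMor L (LvHom Y X) LH (LvHom Y' X') where
  f := r
  φ := (postcomp k).comp (precomp f)
  equivariant := fun h φ => by
    ext y
    show k ((r h • φ) (f y)) = h • k (φ (f (h⁻¹ • y)))
    rw [smul_apply, hk, hf, map_inv]
  levels := hr

@[simp] lemma lvMor_f (L : LevelSys G) (LH : LevelSys H) (r : H →* G)
    (hr : ∀ U ∈ L.levels, ∃ V ∈ LH.levels, V ≤ U.comap r)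
    (f : Y' →+ Y) (hf : ∀ (h : H) (y : Y'), f (h • y) = r h • f y)
    (k : X →+ X') (hk : ∀ (h : H) (x : X), k (r h • x) = h • k x) :
    (lvMor L LH r hr f hf k hk).f = r := rfl

@[simp] lemma lvMor_φ_apply (L : LevelSys G) (LH : LevelSys H) (r : H →* G)
    (hr : ∀ U ∈ L.levels, ∃ V ∈ LH.levels, V ≤ U.comap r)
    (f : Y' →+ Y) (hf : ∀ (h : H) (y : Y'), f (h • y) = r h • f y)
    (k : X →+ X') (hk : ∀ (h : H) (x : X), k (r h • x) = h • k x) (φ : LvHom Y X) (y : Y') :
    (lvMor L LH r hr f hf k hk).φ φ y = k (φ (f y)) := rfl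

end Functoriality

end LvHom

section HomSES

variable {G : Type*} [Group G] {A B C : Type*} [AddCommGroup A] [DistribMulAction G A]
  [AddCommGroup B] [DistribMulAction G B] [AddCommGroup C] [DistribMulAction G C]

/-- `Hom(Y, -)` of a short exact sequence, for `Y` with the lifting property (e.g. free). -/
noncomputable def LvSES.homLeft (E : LvSES G A B C) (Y : Type*) [AddCommGroup Y]
    [DistribMulAction G Y]
    (hY : ∀ g : Y →+ C, ∃ g' : Y →+ B, ∀ y, E.π (g' y) = g y) :
    LvSES G (LvHom Y A) (LvHom Y B) (LvHom Y C) where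
  i := LvHom.postcomp E.i
  π := LvHom.postcomp E.π
  i_equiv := fun g φ => by
    ext y
    show E.i (g • φ (g⁻¹ • y)) = g • E.i (φ (g⁻¹ • y))
    rw [E.i_equiv]
  π_equiv := fun g φ => by
    ext y
    show E.π (g • φ (g⁻¹ • y)) = g • E.π (φ (g⁻¹ • y))
    rw [E.π_equiv]
  i_inj := fun φ ψ h => by
    ext y
    exact E.i_inj (congrArg (fun χ : LvHom Y B => χ y) h)
  π_surj := fun χ => by
    obtain ⟨g', hg'⟩ := hY (LvHom.toHom χ)
    exact ⟨LvHom.of g', LvHom.ext hg'⟩
  exact := fun φ => by
    constructor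
    · intro h
      have h0 : ∀ y, E.π (φ y) = 0 := fun y => congrArg (fun χ : LvHom Y C => χ y) h
      refine ⟨LvHom.of
        { toFun := fun y => E.ret (φ y)
          map_zero' := E.i_inj (by rw [E.i_ret (h0 _), map_zero, map_zero])
          map_add' := fun y y' => E.i_inj (by
            rw [E.i_ret (h0 _), map_add E.i, E.i_ret (h0 _), E.i_ret (h0 _), map_add]) }, ?_⟩
      ext y
      exact E.i_ret (h0 y)
    · rintro ⟨ψ, rfl⟩
      ext y
      exact E.π_i _

end HomSES

/-- Functions on a `G`-set with values in a `G`-module, as a type synonym carrying the conjugation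
action. -/
def LvFun (T X : Type*) : Type _ := T → X

namespace LvFun

section Basic

variable {T X : Type*}

instance : FunLike (LvFun T X) T X := ⟨fun f => f, fun _ _ h => h⟩

@[ext] lemma ext {f f' : LvFun T X} (h : ∀ t, f t = f' t) : f = f' := funext h

variable [AddCommGroup X]

instance : AddCommGroup (LvFun T X) := inferInstanceAs (AddCommGroup (T → X))

/-- The identity `(T → X) ≃+ LvFun T X`. -/
def of : (T → X) ≃+ LvFun T X := AddEquiv.refl _

@[simp] lemma of_apply (f : T → X) (t : T) : (of f) t = f t := rfl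

@[simp] lemma add_apply (f f' : LvFun T X) (t : T) : (f + f') t = f t + f' t := rfl
@[simp] lemma zero_apply (t : T) : (0 : LvFun T X) t = 0 := rfl
@[simp] lemma neg_apply (f : LvFun T X) (t : T) : (-f) t = -f t := rfl
@[simp] lemma sub_apply (f f' : LvFun T X) (t : T) : (f - f') t = f t - f' t := rfl

end Basic

section Action

variable {G : Type*} [Group G] {T X : Type*} [MulAction G T] [AddCommGroup X]
  [DistribMulAction G X]

instance : DistribMulAction G (LvFun T X) where
  smul g f := of (fun t => g • f (g⁻¹ • t))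
  one_smul f := by
    ext t
    show (1 : G) • f ((1 : G)⁻¹ • t) = f t
    rw [inv_one, one_smul, one_smul]
  mul_smul g h f := by
    ext t
    show (g * h) • f ((g * h)⁻¹ • t) = g • (h • f (h⁻¹ • (g⁻¹ • t)))
    rw [mul_inv_rev, mul_smul, mul_smul]
  smul_zero g := by
    ext t
    show g • (0 : LvFun T X) (g⁻¹ • t) = 0
    rw [zero_apply, smul_zero]
  smul_add g f f' := by
    ext t
    show g • (f + f') (g⁻¹ • t) = g • f (g⁻¹ • t) + g • f' (g⁻¹ • t)
    rw [add_apply, smul_add]

@[simp] lemma smul_apply (g : G) (f : LvFun T X) (t : T) : (g • f) t = g • f (g⁻¹ • t) := rfl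

/-- **Shapiro vanishing (injectivity), degree 1.**  A 1-cocycle with values in `LvFun T X` whose
restrictions to the stabilisers (evaluated at the fixed point) are coboundaries is a coboundary. -/
theorem isCoboundary_of_stabilizer (c : G → LvFun T X) (hc : IsCocycle₁ c)
    (h : ∀ t : T, ∃ x : X, ∀ n : G, n • t = t → c n t = n • x - x) :
    ∃ b : LvFun T X, ∀ g : G, c g = g • b - b := by
  classical
  choose x hx using h
  -- orbit representatives
  let rep : T → T := fun t => Quotient.out (Quotient.mk (MulAction.orbitRel G T) t)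
  have hrep_smul : ∀ (g : G) (t : T), rep (g • t) = rep t := by
    intro g t
    have : Quotient.mk (MulAction.orbitRel G T) (g • t) = Quotient.mk (MulAction.orbitRel G T) t :=
      Quotient.sound (MulAction.mem_orbit t g)
    show Quotient.out _ = Quotient.out _
    rw [this]
  have hrep_ex : ∀ t : T, ∃ k : G, k • rep t = t := by
    intro t
    have h1 : (MulAction.orbitRel G T) (rep t) t :=
      Quotient.exact (Quotient.out_eq (Quotient.mk (MulAction.orbitRel G T) t))
    obtain ⟨k, hk⟩ := h1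
    refine ⟨k⁻¹, ?_⟩
    rw [← hk, inv_smul_smul]
  choose kk hkk using hrep_ex
  -- the candidate values along an orbit
  let F : T → G → X := fun t₀ g => g • x t₀ - c g (g • t₀)
  have hcoc : ∀ (g h : G) (t : T), c (g * h) t = g • c h (g⁻¹ • t) + c g t := by
    intro g h t
    have := congrArg (fun f : LvFun T X => f t) (hc g h)
    simpa using this
  have hF : ∀ (t₀ : T) (g g' : G), g • t₀ = g' • t₀ → F t₀ g = F t₀ g' := by
    intro t₀ g g' hgg'
    have hn : (g⁻¹ * g') • t₀ = t₀ := by rw [mul_smul, ← hgg', inv_smul_smul]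
    have h1 : g' = g * (g⁻¹ * g') := by group
    have h2 : c g' (g' • t₀) = g • c (g⁻¹ * g') t₀ + c g (g • t₀) := by
      have := hcoc g (g⁻¹ * g') (g' • t₀)
      rw [← h1] at this
      rw [this, ← hgg', inv_smul_smul]
    show g • x t₀ - c g (g • t₀) = g' • x t₀ - c g' (g' • t₀)
    rw [h2, hx t₀ _ hn, smul_sub, ← mul_smul, ← h1, hgg']
    abel
  refine ⟨of (fun t => F (rep t) (kk t)), fun g => ?_⟩
  ext t
  show c g t = g • F (rep (g⁻¹ • t)) (kk (g⁻¹ • t)) - F (rep t) (kk t)
  rw [hrep_smul]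
  set t₀ := rep t with ht₀
  set k := kk (g⁻¹ • t) with hk
  have hk' : k • t₀ = g⁻¹ • t := by
    have := hkk (g⁻¹ • t)
    rw [hrep_smul] at this
    exact this
  have h3 : F t₀ (kk t) = F t₀ (g * k) := by
    apply hF
    rw [hkk t, mul_smul, hk', smul_inv_smul]
  rw [h3]
  show c g t = g • (k • x t₀ - c k (k • t₀)) - ((g * k) • x t₀ - c (g * k) ((g * k) • t₀))
  have h4 : (g * k) • t₀ = t := by rw [mul_smul, hk', smul_inv_smul]
  rw [h4, hcoc g k t, hk', smul_sub, mul_smul]
  abel

end Action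

end LvFun

section PermBasis

variable {G : Type*} [Group G] {T : Type*} [MulAction G T] {Y X : Type*} [AddCommGroup Y]
  [DistribMulAction G Y] [AddCommGroup X] [DistribMulAction G X]
  (b : T → Y) (hb_smul : ∀ (g : G) (t : T), g • b t = b (g • t))

/-- Evaluation of homomorphisms on a family of elements. -/
def LvHom.evalBasis : LvHom Y X →+ LvFun T X where
  toFun φ := LvFun.of (fun t => φ (b t))
  map_zero' := rfl
  map_add' _ _ := rfl

@[simp] lemma LvHom.evalBasis_apply (φ : LvHom Y X) (t : T) : LvHom.evalBasis b φ t = φ (b t) := rfl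

include hb_smul in
lemma LvHom.evalBasis_smul (g : G) (φ : LvHom Y X) :
    LvHom.evalBasis b (g • φ) = g • LvHom.evalBasis b φ := by
  ext t
  show g • φ (g⁻¹ • b t) = g • φ (b (g⁻¹ • t))
  rw [hb_smul]

include hb_smul in
/-- **Shapiro vanishing for permutation modules** (pure algebra): a 1-cocycle with values in
`Hom(Y, X)`, `Y` with a permutation basis `b`, whose restrictions to the stabilisers are coboundaries
in `X`, is a coboundary. -/
theorem LvHom.isCoboundary_of_stabilizer
    (hb_ext : ∀ φ ψ : LvHom Y X, (∀ t, φ (b t) = ψ (b t)) → φ = ψ)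
    (hb_lift : ∀ f : T → X, ∃ φ : LvHom Y X, ∀ t, φ (b t) = f t)
    (c : G → LvHom Y X) (hc : IsCocycle₁ c)
    (h : ∀ t : T, ∃ x : X, ∀ n : G, n • t = t → c n (b t) = n • x - x) :
    ∃ β : LvHom Y X, ∀ g : G, c g = g • β - β := by
  have hc' : IsCocycle₁ (fun g => LvHom.evalBasis b (c g)) := by
    intro g g'
    show LvHom.evalBasis b (c (g * g')) = g • LvHom.evalBasis b (c g') + LvHom.evalBasis b (c g)
    rw [hc g g', map_add, LvHom.evalBasis_smul b hb_smul]
  obtain ⟨b', hb'⟩ := LvFun.isCoboundary_of_stabilizer (fun g => LvHom.evalBasis b (c g)) hc' h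
  obtain ⟨β, hβ⟩ := hb_lift (fun t => b' t)
  refine ⟨β, fun g => hb_ext _ _ (fun t => ?_)⟩
  have h1 : LvHom.evalBasis b β = b' := LvFun.ext hβ
  have h2 := congrArg (fun f : LvFun T X => f t) (hb' g)
  simp only [LvHom.evalBasis_apply] at h2
  rw [h2, ← h1]
  show g • β (b (g⁻¹ • t)) - β (b t) = g • β (g⁻¹ • b t) - β (b t)
  rw [hb_smul]

include hb_smul in
/-- **(SHAP1).**  If all level-constant 1-cocycles of the stabilisers with values in `X` are
coboundaries, then `lvH1 L (Hom(Y, X)) = 0` for `Y` with a permutation basis. -/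
theorem LvHom.lvH1_eq_zero_of_stabilizer (L : LevelSys G)
    (hb_ext : ∀ φ ψ : LvHom Y X, (∀ t, φ (b t) = ψ (b t)) → φ = ψ)
    (hb_lift : ∀ f : T → X, ∃ φ : LvHom Y X, ∀ t, φ (b t) = f t)
    (hstab : ∀ t : T, ∀ c₀ : MulAction.stabilizer G t → X, IsCocycle₁ c₀ →
      (L.comap (MulAction.stabilizer G t).subtype).IsLC1 c₀ →
      ∃ x : X, ∀ n : MulAction.stabilizer G t, c₀ n = n • x - x)
    (z : lvH1 L (LvHom Y X)) : z = 0 := by
  obtain ⟨c, rfl⟩ := lvH1mk_surjective z
  rw [lvH1mk_eq_zero_iff]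
  have hcoc : IsCocycle₁ (c : G → LvHom Y X) := c.2.1
  obtain ⟨U, hU, hUc⟩ := c.2.2
  have h : ∀ t : T, ∃ x : X, ∀ n : G, n • t = t → (c : G → LvHom Y X) n (b t) = n • x - x := by
    intro t
    have h1 : IsCocycle₁ (fun n : MulAction.stabilizer G t => (c : G → LvHom Y X) n (b t)) := by
      intro n m
      show (c : G → LvHom Y X) ((n : G) * (m : G)) (b t) =
        (n : G) • (c : G → LvHom Y X) m (b t) + (c : G → LvHom Y X) n (b t)
      rw [hcoc n m]
      show (n : G) • (c : G → LvHom Y X) m ((n : G)⁻¹ • b t) + _ = _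
      have hn : (n : G)⁻¹ • t = t := by
        have := n.2
        rw [MulAction.mem_stabilizer_iff] at this
        rw [inv_smul_eq_iff, this]
      rw [hb_smul, hn]
      rfl
    have h2 : (L.comap (MulAction.stabilizer G t).subtype).IsLC1
        (fun n : MulAction.stabilizer G t => (c : G → LvHom Y X) n (b t)) := by
      refine ⟨U.comap (MulAction.stabilizer G t).subtype, ⟨U, hU, rfl⟩, fun n s hs => ?_⟩
      show (c : G → LvHom Y X) ((n : G) * (s : G)) (b t) = (c : G → LvHom Y X) n (b t)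
      rw [hUc n s hs]
    obtain ⟨x, hx⟩ := hstab t _ h1 h2
    exact ⟨x, fun n hn => hx ⟨n, MulAction.mem_stabilizer_iff.2 hn⟩⟩
  obtain ⟨β, hβ⟩ := LvHom.isCoboundary_of_stabilizer b hb_smul hb_ext hb_lift _ hcoc h
  refine ⟨β, ?_⟩
  funext g
  rw [lvD0_apply]
  exact (hβ g).symm

end PermBasis

end Fermat.Agent.S55
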