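import Fermat.Agent.S55.Level.Finite
import Fermat.Agent.S55.Level.HomModule

/-!
# Inflation is injective on `H²` when `H¹` of the kernel vanishes (block [F] of S55)

For a finite quotient `Q : LvQuot L X Γ X'` with kernel `N = ker q`: if every level-constant
1-cocycle `N → X` is a coboundary, then the inflation `Q.mor.H2 : H²(Γ, X') → lvH2 L X` is
injective (the degree-2 inflation–restriction sequence, in level cohomology).
-/

set_option autoImplicit false

namespace Fermat.Agent.S55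

open groupCohomology

namespace LvQuot

variable {G : Type*} [Group G] {L : LevelSys G} {X : Type*} [AddCommGroup X] [DistribMulAction G X]
  {Γ : Type*} [Group Γ] [Finite Γ] {X' : Type*} [AddCommGroup X'] [DistribMulAction Γ X']
  (Q : LvQuot L X Γ X')

/-- **Inflation–restriction in degree 2.**  If `H¹` of the kernel vanishes (in the level sense),
inflation from the finite level is injective on `H²`. -/
theorem H2_injective_of_ker
    (hN : ∀ c₀ : Q.q.ker → X, IsCocycle₁ c₀ → (L.comap Q.q.ker.subtype).IsLC1 c₀ →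
      ∃ x : X, ∀ n : Q.q.ker, c₀ n = n • x - x) :
    Function.Injective Q.mor.H2 := by
  rw [injective_iff_map_eq_zero]
  intro y hy
  obtain ⟨c', rfl⟩ := lvH2mk_surjective y
  rw [LvMor.H2_mk, lvH2mk_eq_zero_iff] at hy
  obtain ⟨b, ⟨U, hU, hbU⟩, hbc⟩ := hy
  rw [LvMor.Z2_coe] at hbc
  have hcoc : IsCocycle₂ (c' : Γ × Γ → X') := c'.2.1
  set a' : X' := (c' : Γ × Γ → X') (1, 1) with ha'
  set a : X := Q.φ a' with ha
  have hc1 : ∀ γ : Γ, (c' : Γ × Γ → X') (1, γ) = a' := fun γ => map_one_fst_of_isCocycle₂ hcoc γ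
  have hc2 : ∀ γ : Γ, (c' : Γ × Γ → X') (γ, 1) = γ • a' := fun γ => map_one_snd_of_isCocycle₂ hcoc γ
  have hafix : ∀ n ∈ Q.q.ker, n • a = a := fun n hn => Q.fixed a' hn
  -- the value of `d b`
  have hd : ∀ g h : G, g • b h - b (g * h) + b g = Q.φ ((c' : Γ × Γ → X') (Q.q g, Q.q h)) := by
    intro g h
    have := congrFun hbc (g, h)
    simpa using this
  -- `b₁ = b - a` restricted to the kernel is a level-constant cocycle
  have h1coc : IsCocycle₁ (fun n : Q.q.ker => b n - a) := by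
    intro n m
    have h := hd n m
    rw [MonoidHom.mem_ker.mp n.2, MonoidHom.mem_ker.mp m.2, ← ha', ← ha] at h
    show b ((n : G) * (m : G)) - a = (n : G) • (b m - a) + (b n - a)
    rw [smul_sub, hafix n n.2]
    have : b ((n : G) * (m : G)) = (n : G) • b m + b n - a := by
      rw [← h]; abel
    rw [this]; abel
  have h1lc : (L.comap Q.q.ker.subtype).IsLC1 (fun n : Q.q.ker => b n - a) := by
    refine ⟨U.comap Q.q.ker.subtype, ⟨U, hU, rfl⟩, fun n s hs => ?_⟩
    show b ((n : G) * (s : G)) - a = b n - a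
    rw [hbU n s hs]
  obtain ⟨x, hx⟩ := hN _ h1coc h1lc
  -- `b₂ = b - a - d⁰ x`
  set b₂ : G → X := fun g => b g - a - (g • x - x) with hb₂
  have hb₂N : ∀ n ∈ Q.q.ker, b₂ n = 0 := by
    intro n hn
    have := hx ⟨n, hn⟩
    show b n - a - (n • x - x) = 0
    rw [sub_eq_zero]
    exact this
  have hd₂ : ∀ g h : G, g • b₂ h - b₂ (g * h) + b₂ g =
      Q.φ ((c' : Γ × Γ → X') (Q.q g, Q.q h)) - g • a := by
    intro g h
    rw [← hd g h]
    simp only [hb₂, smul_sub, mul_smul]
    abel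
  -- right invariance
  have hr : ∀ g : G, ∀ n ∈ Q.q.ker, b₂ (g * n) = b₂ g := by
    intro g n hn
    have h := hd₂ g n
    rw [hb₂N n hn, smul_zero, MonoidHom.mem_ker.mp hn, hc2, Q.equivariant, ← ha, sub_self] at h
    have : b₂ (g * n) = b₂ g - (0 - b₂ (g * n) + b₂ g) := by abel
    rw [this, h, sub_zero]
  -- fixed values
  have hf : ∀ g : G, ∀ n ∈ Q.q.ker, n • b₂ g = b₂ g := by
    intro g n hn
    have h := hd₂ n g
    rw [hb₂N n hn, MonoidHom.mem_ker.mp hn, hc1, ← ha, hafix n hn, sub_self, add_zero] at h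
    have h' : n • b₂ g = b₂ (n * g) := sub_eq_zero.mp h
    have hconj : g⁻¹ * n * g ∈ Q.q.ker := by
      have := (inferInstance : Q.q.ker.Normal).conj_mem n hn g⁻¹
      simpa using this
    have : n * g = g * (g⁻¹ * n * g) := by group
    rw [h', this, hr g _ hconj]
  obtain ⟨b₂', hb₂'⟩ := Q.exists_pull1 (c := b₂) ⟨hr, hf⟩
  rw [lvH2mk_eq_zero_iff]
  refine ⟨fun γ => b₂' γ + a', LevelSys.isLC1_trivial _, Q.pull2_injective ?_⟩
  rw [LvMor.pull2_lvD1]
  funext ⟨g, h⟩
  have h1 : Q.mor.pull1 (fun γ => b₂' γ + a') = fun g => b₂ g + a := by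
    funext g
    have := congrFun hb₂' g
    simp only [LvMor.pull1_apply, mor_f, mor_φ] at this ⊢
    rw [map_add, this]
  rw [h1]
  have := hd₂ g h
  simp only [lvD1_apply, LvMor.pull2_apply, mor_f, mor_φ, smul_add]
  rw [← sub_eq_zero] at this ⊢
  rw [← this]
  abel

end LvQuot


/-- Two homomorphisms out of a group isomorphic to `ℤᵐ` agreeing on the standard basis are equal. -/
lemma lvHom_ext_of_free {Y X : Type*} [AddCommGroup Y] [AddCommGroup X] {m : ℕ}
    (e : Y ≃+ (Fin m → ℤ)) {φ ψ : Y →+ X}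
    (h : ∀ i : Fin m, φ (e.symm (Pi.single i 1)) = ψ (e.symm (Pi.single i 1))) : φ = ψ := by
  have h1 : φ.comp e.symm.toAddMonoidHom = ψ.comp e.symm.toAddMonoidHom := by
    apply AddMonoidHom.functions_ext
    intro i x
    have h2 : ((φ.comp e.symm.toAddMonoidHom).comp (AddMonoidHom.single (fun _ : Fin m => ℤ) i)) =
        ((ψ.comp e.symm.toAddMonoidHom).comp (AddMonoidHom.single (fun _ : Fin m => ℤ) i)) := by
      apply AddMonoidHom.ext_int
      exact h i
    exact DFunLike.congr_fun h2 x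
  ext y
  have := DFunLike.congr_fun h1 (e y)
  simpa using this

/-- Homomorphisms out of a group isomorphic to `ℤᵐ` with prescribed values on the standard
basis. -/
lemma lvHom_exists_of_free {Y X : Type*} [AddCommGroup Y] [AddCommGroup X] {m : ℕ}
    (e : Y ≃+ (Fin m → ℤ)) (x : Fin m → X) :
    ∃ φ : Y →+ X, ∀ i : Fin m, φ (e.symm (Pi.single i 1)) = x i := by
  classical
  refine ⟨(∑ i : Fin m, (zmultiplesHom X (x i)).comp (Pi.evalAddMonoidHom (fun _ => ℤ) i)).comp
    e.toAddMonoidHom, fun i => ?_⟩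
  simp only [AddMonoidHom.comp_apply, AddEquiv.coe_toAddMonoidHom, AddEquiv.apply_symm_apply,
    AddMonoidHom.finsetSum_apply, Pi.evalAddMonoidHom_apply, zmultiplesHom_apply]
  rw [Finset.sum_eq_single i]
  · simp
  · intro j _ hj
    simp [hj]
  · intro h
    exact absurd (Finset.mem_univ i) h

/-- If `N` acts trivially on a lattice `Y` and level-constant 1-cocycles `N → X` are coboundaries,
then level-constant 1-cocycles `N → Hom(Y, X)` are coboundaries. -/
theorem LvHom.isCoboundary_of_trivial_action {N : Type*} [Group N] {Y X : Type*} [AddCommGroup Y]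
    [AddCommGroup X] [DistribMulAction N Y] [DistribMulAction N X] (LN : LevelSys N)
    (hY : ∀ (n : N) (y : Y), n • y = y) {m : ℕ} (e : Y ≃+ (Fin m → ℤ))
    (hX : ∀ c : N → X, IsCocycle₁ c → LN.IsLC1 c → ∃ x : X, ∀ n : N, c n = n • x - x)
    (c₀ : N → LvHom Y X) (hc : IsCocycle₁ c₀) (hlc : LN.IsLC1 c₀) :
    ∃ β : LvHom Y X, ∀ n : N, c₀ n = n • β - β := by
  have h1 : ∀ i : Fin m, ∃ x : X, ∀ n : N, c₀ n (e.symm (Pi.single i 1)) = n • x - x := by
    intro i
    refine hX (fun n => c₀ n (e.symm (Pi.single i 1))) ?_ ?_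
    · intro n n'
      show c₀ (n * n') _ = n • c₀ n' _ + c₀ n _
      rw [hc n n']
      show n • c₀ n' (n⁻¹ • _) + _ = _
      rw [hY]
      rfl
    · obtain ⟨U, hU, h⟩ := hlc
      exact ⟨U, hU, fun n s hs => by show c₀ (n * s) _ = c₀ n _; rw [h n s hs]⟩
  choose x hx using h1
  obtain ⟨β, hβ⟩ := lvHom_exists_of_free e x
  refine ⟨LvHom.of β, fun n => ?_⟩
  have h2 : LvHom.toHom (c₀ n) = LvHom.toHom (n • LvHom.of β - LvHom.of β) := by
    apply lvHom_ext_of_free e
    intro i
    show c₀ n _ = n • β (n⁻¹ • _) - β _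
    rw [hY, hβ, hx i n]
  exact h2

end Fermat.Agent.S55
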