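import Fermat.Agent.S55.Level.Finite

/-!
# Level cohomology of a finite group is Mathlib's group cohomology (block [F] of S55)

For a finite group `Γ : Type`, `A : Rep ℤ Γ` and an equivariant additive identification
`e : X' ≃+ A.V`, `lvH1Equiv A e he : lvH1 (LevelSys.trivial Γ) X' ≃+ groupCohomology.H1 A` and
`lvH2Equiv A e he : lvH2 (LevelSys.trivial Γ) X' ≃+ groupCohomology.H2 A`; they intertwine
`LvMor.H1/H2` with `groupCohomology.map`.  `lvRepAction A` is the `DistribMulAction` on `A.V`.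
-/

set_option autoImplicit false

namespace Fermat.Agent.S55

open groupCohomology

/-- The `DistribMulAction` underlying a representation (not an instance; use `letI`). -/
@[reducible] def lvRepAction {k : Type*} {Γ : Type*} [CommRing k] [Group Γ] (A : Rep k Γ) :
    DistribMulAction Γ A.V where
  smul g x := A.ρ g x
  one_smul x := by show A.ρ 1 x = x; rw [map_one]; rfl
  mul_smul g h x := by show A.ρ (g * h) x = A.ρ g (A.ρ h x); rw [map_mul]; rfl
  smul_zero g := map_zero (A.ρ g)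
  smul_add g x y := map_add (A.ρ g) x y

section Bridge

variable {Γ : Type} [Group Γ] [Finite Γ] (A : Rep.{0} ℤ Γ) {X' : Type*} [AddCommGroup X']
  [DistribMulAction Γ X'] (e : X' ≃+ A.V) (he : ∀ (g : Γ) (x : X'), e (g • x) = A.ρ g (e x))

/-- Level 1-cocycles of a finite group as Mathlib 1-cocycles. -/
def lvZ1ToCocycles : lvZ1 (LevelSys.trivial Γ) X' →+ cocycles₁ A where
  toFun c := ⟨fun g => e (c.1 g), (mem_cocycles₁_iff _).2 (fun g h => by
    rw [c.2.1 g h, map_add, he])⟩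
  map_zero' := Subtype.ext (funext fun g => map_zero e)
  map_add' c c' := Subtype.ext (funext fun g => map_add e _ _)

@[simp] lemma lvZ1ToCocycles_apply (c : lvZ1 (LevelSys.trivial Γ) X') (g : Γ) :
    (lvZ1ToCocycles A e he c : Γ → A.V) g = e ((c : Γ → X') g) := rfl

/-- Level 2-cocycles of a finite group as Mathlib 2-cocycles. -/
def lvZ2ToCocycles : lvZ2 (LevelSys.trivial Γ) X' →+ cocycles₂ A where
  toFun c := ⟨fun p => e (c.1 p), (mem_cocycles₂_iff _).2 (fun g h j => by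
    rw [← map_add, c.2.1 g h j, map_add, he])⟩
  map_zero' := Subtype.ext (funext fun g => map_zero e)
  map_add' c c' := Subtype.ext (funext fun g => map_add e _ _)

@[simp] lemma lvZ2ToCocycles_apply (c : lvZ2 (LevelSys.trivial Γ) X') (p : Γ × Γ) :
    (lvZ2ToCocycles A e he c : Γ × Γ → A.V) p = e ((c : Γ × Γ → X') p) := rfl

/-- The comparison map in degree 1. -/
noncomputable def lvH1Hom : lvH1 (LevelSys.trivial Γ) X' →+ H1 A :=
  QuotientAddGroup.lift _ ((H1π A).hom.toAddMonoidHom.comp (lvZ1ToCocycles A e he)) (by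
    rintro c hc
    rw [AddSubgroup.mem_addSubgroupOf] at hc
    obtain ⟨x, hx⟩ := hc
    rw [AddMonoidHom.mem_ker, AddMonoidHom.comp_apply]
    show (H1π A) (lvZ1ToCocycles A e he c) = 0
    rw [H1π_eq_zero_iff]
    refine ⟨e x, ?_⟩
    funext g
    rw [d₀₁_hom_apply, lvZ1ToCocycles_apply, ← hx, lvD0_apply, map_sub, he])

lemma lvH1Hom_mk (c : lvZ1 (LevelSys.trivial Γ) X') :
    lvH1Hom A e he (lvH1mk _ _ c) = (H1π A) (lvZ1ToCocycles A e he c) := rfl

/-- The comparison map in degree 2. -/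
noncomputable def lvH2Hom : lvH2 (LevelSys.trivial Γ) X' →+ H2 A :=
  QuotientAddGroup.lift _ ((H2π A).hom.toAddMonoidHom.comp (lvZ2ToCocycles A e he)) (by
    rintro c hc
    rw [AddSubgroup.mem_addSubgroupOf] at hc
    obtain ⟨b, -, hb⟩ := hc
    rw [AddMonoidHom.mem_ker, AddMonoidHom.comp_apply]
    show (H2π A) (lvZ2ToCocycles A e he c) = 0
    rw [H2π_eq_zero_iff]
    refine ⟨fun g => e (b g), ?_⟩
    funext p
    rw [d₁₂_hom_apply, lvZ2ToCocycles_apply, ← hb]
    obtain ⟨g, h⟩ := p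
    rw [lvD1_apply, map_add, map_sub, he])

lemma lvH2Hom_mk (c : lvZ2 (LevelSys.trivial Γ) X') :
    lvH2Hom A e he (lvH2mk _ _ c) = (H2π A) (lvZ2ToCocycles A e he c) := rfl

theorem lvH1Hom_injective : Function.Injective (lvH1Hom A e he) := by
  rw [injective_iff_map_eq_zero]
  intro y hy
  obtain ⟨c, rfl⟩ := lvH1mk_surjective y
  rw [lvH1Hom_mk, H1π_eq_zero_iff] at hy
  obtain ⟨y, hy⟩ := hy
  rw [lvH1mk_eq_zero_iff]
  refine ⟨e.symm y, ?_⟩
  funext g
  apply e.injective
  have := congrFun hy g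
  rw [d₀₁_hom_apply, lvZ1ToCocycles_apply] at this
  rw [lvD0_apply, map_sub, he, e.apply_symm_apply, this]

theorem lvH1Hom_surjective : Function.Surjective (lvH1Hom A e he) := by
  intro y
  induction y using H1_induction_on with
  | h z =>
    have hz := (mem_cocycles₁_iff _).1 z.2
    have hcoc : IsCocycle₁ (fun g => e.symm (z g)) := by
      intro g h
      apply e.injective
      simp only [map_add, he, e.apply_symm_apply]
      exact hz g h
    refine ⟨lvH1mk _ _ ⟨fun g => e.symm (z g), hcoc, LevelSys.isLC1_trivial _⟩, ?_⟩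
    rw [lvH1Hom_mk]
    congr 1
    apply Subtype.ext
    funext g
    exact e.apply_symm_apply _

theorem lvH2Hom_injective : Function.Injective (lvH2Hom A e he) := by
  rw [injective_iff_map_eq_zero]
  intro y hy
  obtain ⟨c, rfl⟩ := lvH2mk_surjective y
  rw [lvH2Hom_mk, H2π_eq_zero_iff] at hy
  obtain ⟨b, hb⟩ := hy
  rw [lvH2mk_eq_zero_iff]
  refine ⟨fun g => e.symm (b g), LevelSys.isLC1_trivial _, ?_⟩
  funext ⟨g, h⟩
  apply e.injective
  have := congrFun hb (g, h)
  rw [d₁₂_hom_apply, lvZ2ToCocycles_apply] at this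
  rw [lvD1_apply, map_add, map_sub, he, e.apply_symm_apply, e.apply_symm_apply,
    e.apply_symm_apply, this]

theorem lvH2Hom_surjective : Function.Surjective (lvH2Hom A e he) := by
  intro y
  induction y using H2_induction_on with
  | h z =>
    have hz := (mem_cocycles₂_iff _).1 z.2
    have hcoc : IsCocycle₂ (fun p => e.symm (z p)) := by
      intro g h j
      apply e.injective
      simp only [map_add, he, e.apply_symm_apply]
      exact hz g h j
    refine ⟨lvH2mk _ _ ⟨fun p => e.symm (z p), hcoc, LevelSys.isLC2_trivial _⟩, ?_⟩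
    rw [lvH2Hom_mk]
    congr 1
    apply Subtype.ext
    funext p
    exact e.apply_symm_apply _

/-- Level `H¹` of a finite group is Mathlib's `H¹`. -/
noncomputable def lvH1Equiv : lvH1 (LevelSys.trivial Γ) X' ≃+ H1 A :=
  AddEquiv.ofBijective (lvH1Hom A e he) ⟨lvH1Hom_injective A e he, lvH1Hom_surjective A e he⟩

/-- Level `H²` of a finite group is Mathlib's `H²`. -/
noncomputable def lvH2Equiv : lvH2 (LevelSys.trivial Γ) X' ≃+ H2 A :=
  AddEquiv.ofBijective (lvH2Hom A e he) ⟨lvH2Hom_injective A e he, lvH2Hom_surjective A e he⟩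

@[simp] lemma lvH1Equiv_mk (c : lvZ1 (LevelSys.trivial Γ) X') :
    lvH1Equiv A e he (lvH1mk _ _ c) = (H1π A) (lvZ1ToCocycles A e he c) := rfl

@[simp] lemma lvH2Equiv_mk (c : lvZ2 (LevelSys.trivial Γ) X') :
    lvH2Equiv A e he (lvH2mk _ _ c) = (H2π A) (lvZ2ToCocycles A e he c) := rfl

end Bridge

section BridgeMap

variable {Γ₁ Γ₂ : Type} [Group Γ₁] [Finite Γ₁] [Group Γ₂] [Finite Γ₂]
  (A : Rep.{0} ℤ Γ₁) (B : Rep.{0} ℤ Γ₂)
  {X₁ : Type*} [AddCommGroup X₁] [DistribMulAction Γ₁ X₁]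
  {X₂ : Type*} [AddCommGroup X₂] [DistribMulAction Γ₂ X₂]
  (e₁ : X₁ ≃+ A.V) (he₁ : ∀ (g : Γ₁) (x : X₁), e₁ (g • x) = A.ρ g (e₁ x))
  (e₂ : X₂ ≃+ B.V) (he₂ : ∀ (g : Γ₂) (x : X₂), e₂ (g • x) = B.ρ g (e₂ x))
  (m : LvMor (LevelSys.trivial Γ₁) X₁ (LevelSys.trivial Γ₂) X₂)
  (φ : Rep.res m.f A ⟶ B) (hφ : ∀ x : X₁, e₂ (m.φ x) = φ.hom (e₁ x))

include hφ in
/-- The comparison isomorphisms are compatible with functoriality (degree 1). -/
theorem lvH1Equiv_map (y : lvH1 (LevelSys.trivial Γ₁) X₁) :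
    lvH1Equiv B e₂ he₂ (m.H1 y) = (map m.f φ 1) (lvH1Equiv A e₁ he₁ y) := by
  obtain ⟨c, rfl⟩ := lvH1mk_surjective y
  rw [LvMor.H1_mk, lvH1Equiv_mk, lvH1Equiv_mk, H1π_comp_map_apply]
  congr 1
  apply Subtype.ext
  funext g
  exact hφ _

include hφ in
/-- The comparison isomorphisms are compatible with functoriality (degree 2). -/
theorem lvH2Equiv_map (y : lvH2 (LevelSys.trivial Γ₁) X₁) :
    lvH2Equiv B e₂ he₂ (m.H2 y) = (map m.f φ 2) (lvH2Equiv A e₁ he₁ y) := by
  obtain ⟨c, rfl⟩ := lvH2mk_surjective y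
  rw [LvMor.H2_mk, lvH2Equiv_mk, lvH2Equiv_mk, H2π_comp_map_apply]
  congr 1
  apply Subtype.ext
  funext p
  exact hφ _

end BridgeMap
end Fermat.Agent.S55
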