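import Fermat.Agent.S55.Level.Cohomology

/-!
# The long exact sequence of level cohomology in degrees 0, 1, 2 (block [F] of S55)

For a short exact sequence `0 → A → B → C → 0` of `G`-modules with `B` smooth:
`H⁰(B) → H⁰(C) → H¹(A) → H¹(B) → H¹(C) → H²(A) → H²(B) → H²(C)`.
-/

set_option autoImplicit false

namespace Fermat.Agent.S55

open groupCohomology

/-- Descend a homomorphism along a surjection whose kernel it kills. -/
noncomputable def lvDescend {P Q R : Type*} [AddCommGroup P] [AddCommGroup Q] [AddCommGroup R]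
    (q : P →+ Q) (hq : Function.Surjective q) (Φ : P →+ R) (h : q.ker ≤ Φ.ker) : Q →+ R :=
  (QuotientAddGroup.lift q.ker Φ h).comp
    (QuotientAddGroup.quotientKerEquivOfSurjective q hq).symm.toAddMonoidHom

lemma lvDescend_apply {P Q R : Type*} [AddCommGroup P] [AddCommGroup Q] [AddCommGroup R]
    (q : P →+ Q) (hq : Function.Surjective q) (Φ : P →+ R) (h : q.ker ≤ Φ.ker) (x : P) :
    lvDescend q hq Φ h (q x) = Φ x := by
  have h1 : (QuotientAddGroup.quotientKerEquivOfSurjective q hq).symm (q x)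
      = (x : P ⧸ q.ker) := by
    rw [AddEquiv.symm_apply_eq]; rfl
  simp only [lvDescend, AddMonoidHom.comp_apply, AddEquiv.coe_toAddMonoidHom, h1]
  rfl

/-- A short exact sequence of `G`-modules. -/
structure LvSES (G : Type*) [Group G] (A B C : Type*) [AddCommGroup A] [DistribMulAction G A]
    [AddCommGroup B] [DistribMulAction G B] [AddCommGroup C] [DistribMulAction G C] where
  i : A →+ B
  π : B →+ C
  i_equiv : ∀ (g : G) (a : A), i (g • a) = g • i a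
  π_equiv : ∀ (g : G) (b : B), π (g • b) = g • π b
  i_inj : Function.Injective i
  π_surj : Function.Surjective π
  exact : ∀ b : B, π b = 0 ↔ ∃ a : A, i a = b

namespace LvSES

variable {G : Type*} [Group G] {A B C : Type*} [AddCommGroup A] [DistribMulAction G A]
  [AddCommGroup B] [DistribMulAction G B] [AddCommGroup C] [DistribMulAction G C]
  (E : LvSES G A B C) (L : LevelSys G)

lemma π_i (a : A) : E.π (E.i a) = 0 := (E.exact _).2 ⟨a, rfl⟩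

/-- The coefficient morphism `A → B`. -/
def mi : LvMor L A L B := LvMor.ofCoeff L E.i E.i_equiv

/-- The coefficient morphism `B → C`. -/
def mπ : LvMor L B L C := LvMor.ofCoeff L E.π E.π_equiv

/-- A set-theoretic retraction of `i`. -/
noncomputable def ret : B → A := fun b => Function.invFun E.i b

/-- A set-theoretic section of `π`. -/
noncomputable def sec : C → B := Function.surjInv E.π_surj

lemma ret_i (a : A) : E.ret (E.i a) = a := Function.leftInverse_invFun E.i_inj a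

lemma i_ret {b : B} (hb : E.π b = 0) : E.i (E.ret b) = b := by
  obtain ⟨a, rfl⟩ := (E.exact b).1 hb
  rw [ret_i]

lemma π_sec (c : C) : E.π (E.sec c) = c := Function.surjInv_eq E.π_surj c

lemma mi_pull1_apply (a : G → A) (g : G) : (E.mi L).pull1 a g = E.i (a g) := rfl
lemma mπ_pull1_apply (b : G → B) (g : G) : (E.mπ L).pull1 b g = E.π (b g) := rfl
lemma mi_pull2_apply (a : G × G → A) (p : G × G) : (E.mi L).pull2 a p = E.i (a p) := rfl
lemma mπ_pull2_apply (b : G × G → B) (p : G × G) : (E.mπ L).pull2 b p = E.π (b p) := rfl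

include E in
lemma isSmooth_A (hB : L.IsSmooth B) : L.IsSmooth A := by
  intro a
  obtain ⟨U, hU, h⟩ := hB (E.i a)
  refine ⟨U, hU, fun u hu => E.i_inj ?_⟩
  rw [E.i_equiv, h u hu]

include E in
lemma isSmooth_C (hB : L.IsSmooth B) : L.IsSmooth C := by
  intro c
  obtain ⟨b, rfl⟩ := E.π_surj c
  obtain ⟨U, hU, h⟩ := hB b
  refine ⟨U, hU, fun u hu => ?_⟩
  rw [← E.π_equiv, h u hu]

/-! ### Descending cochains with values in `ker π` to `A` -/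

/-- Descend a 1-cochain. -/
noncomputable def desc1 (b : G → B) : G → A := fun g => E.ret (b g)

/-- Descend a 2-cochain. -/
noncomputable def desc2 (b : G × G → B) : G × G → A := fun p => E.ret (b p)

lemma i_desc1 {b : G → B} (hb : ∀ g, E.π (b g) = 0) (g : G) : E.i (E.desc1 b g) = b g :=
  E.i_ret (hb g)

lemma i_desc2 {b : G × G → B} (hb : ∀ p, E.π (b p) = 0) (p : G × G) :
    E.i (E.desc2 b p) = b p :=
  E.i_ret (hb p)

lemma desc1_comp (a : G → A) : E.desc1 (fun g => E.i (a g)) = a := by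
  funext g; exact E.ret_i _

lemma desc2_comp (a : G × G → A) : E.desc2 (fun p => E.i (a p)) = a := by
  funext p; exact E.ret_i _

lemma pull1_desc1 {b : G → B} (hb : ∀ g, E.π (b g) = 0) :
    (E.mi L).pull1 (E.desc1 b) = b := by
  funext g; exact E.i_desc1 hb g

lemma pull2_desc2 {b : G × G → B} (hb : ∀ p, E.π (b p) = 0) :
    (E.mi L).pull2 (E.desc2 b) = b := by
  funext ⟨g, h⟩; exact E.i_desc2 hb (g, h)

lemma pull1_mi_injective : Function.Injective (E.mi L).pull1 := by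
  intro a a' h
  funext g
  exact E.i_inj (congrFun h g)

lemma pull2_mi_injective : Function.Injective (E.mi L).pull2 := by
  intro a a' h
  funext ⟨g, g'⟩
  exact E.i_inj (congrFun h (g, g'))

lemma isLC1_desc1 {b : G → B} (hb : L.IsLC1 b) : L.IsLC1 (E.desc1 b) := hb.comp E.ret

lemma isLC2_desc2 {b : G × G → B} (hb : L.IsLC2 b) : L.IsLC2 (E.desc2 b) := hb.comp E.ret

lemma isCocycle₁_desc1 {b : G → B} (hb : ∀ g, E.π (b g) = 0) (hc : IsCocycle₁ b) :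
    IsCocycle₁ (E.desc1 b) := by
  intro g h
  apply E.i_inj
  rw [map_add, E.i_equiv, E.i_desc1 hb, E.i_desc1 hb, E.i_desc1 hb, hc g h]

lemma isCocycle₂_desc2 {b : G × G → B} (hb : ∀ p, E.π (b p) = 0) (hc : IsCocycle₂ b) :
    IsCocycle₂ (E.desc2 b) := by
  intro g h j
  apply E.i_inj
  rw [map_add, map_add, E.i_equiv, E.i_desc2 hb, E.i_desc2 hb, E.i_desc2 hb, E.i_desc2 hb,
    hc g h j]

lemma π_pull1_mi (a : G → A) (g : G) : E.π ((E.mi L).pull1 a g) = 0 := E.π_i _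

lemma pull1_mπ_eq_zero_iff (b : G → B) : (E.mπ L).pull1 b = 0 ↔ ∀ g, E.π (b g) = 0 :=
  ⟨fun h g => congrFun h g, fun h => funext h⟩

lemma pull2_mπ_eq_zero_iff (b : G × G → B) : (E.mπ L).pull2 b = 0 ↔ ∀ p, E.π (b p) = 0 :=
  ⟨fun h p => congrFun h (p.1, p.2), fun h => funext fun p => h (p.1, p.2)⟩

/-! ### The connecting map `δ⁰ : H⁰(C) → H¹(A)` -/

/-- Lifts of invariants of `C`. -/
def P0 : AddSubgroup B := (lvH0 (G := G) C).comap E.π

/-- `P0 → H⁰(C)`. -/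
def q0 : E.P0 →+ lvH0 (G := G) C :=
  (E.π.comp E.P0.subtype).codRestrict _ (fun b => b.2)

lemma q0_surjective : Function.Surjective E.q0 := by
  rintro ⟨c, hc⟩
  obtain ⟨b, rfl⟩ := E.π_surj c
  exact ⟨⟨b, hc⟩, rfl⟩

lemma π_lvD0_of_mem_P0 {b : B} (hb : b ∈ E.P0) (g : G) : E.π (lvD0 G B b g) = 0 := by
  have : g • E.π b = E.π b := hb g
  rw [lvD0_apply, map_sub, E.π_equiv, this, sub_self]

/-- `P0 → Z¹(A)`, `b ↦ i⁻¹ (g ↦ g • b - b)`. -/
noncomputable def Ψ0 (hB : L.IsSmooth B) : E.P0 →+ lvZ1 L A :=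
  AddMonoidHom.mk' (fun b => ⟨E.desc1 (lvD0 G B b.1),
    E.isCocycle₁_desc1 (E.π_lvD0_of_mem_P0 b.2) (isCocycle₁_lvD0 _),
    E.isLC1_desc1 L (isLC1_lvD0 hB _)⟩) (by
    intro b b'
    apply Subtype.ext
    funext g
    apply E.i_inj
    show E.i (E.desc1 (lvD0 G B (b + b' : E.P0).1) g)
      = E.i (E.desc1 (lvD0 G B b.1) g + E.desc1 (lvD0 G B b'.1) g)
    rw [map_add, E.i_desc1 (E.π_lvD0_of_mem_P0 b.2), E.i_desc1 (E.π_lvD0_of_mem_P0 b'.2),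
      E.i_desc1 (E.π_lvD0_of_mem_P0 (b + b').2), AddSubgroup.coe_add, map_add]
    rfl)

lemma pull1_Ψ0 (hB : L.IsSmooth B) (b : E.P0) :
    (E.mi L).pull1 (E.Ψ0 L hB b : G → A) = lvD0 G B b.1 :=
  E.pull1_desc1 L (E.π_lvD0_of_mem_P0 b.2)

lemma ker_q0_le (hB : L.IsSmooth B) :
    E.q0.ker ≤ ((lvH1mk L A).comp (E.Ψ0 L hB)).ker := by
  intro b hb
  rw [AddMonoidHom.mem_ker] at hb ⊢
  have hb' : E.π b.1 = 0 := congrArg Subtype.val hb
  obtain ⟨a, ha⟩ := (E.exact _).1 hb'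
  rw [AddMonoidHom.comp_apply, lvH1mk_eq_zero_iff]
  refine ⟨a, ?_⟩
  apply E.pull1_mi_injective L
  rw [E.pull1_Ψ0 L hB, LvMor.pull1_lvD0]
  show lvD0 G B (E.i a) = _
  rw [ha]

/-- The connecting homomorphism `δ⁰ : H⁰(C) → H¹(A)`. -/
noncomputable def δ0 (hB : L.IsSmooth B) : lvH0 (G := G) C →+ lvH1 L A :=
  lvDescend E.q0 E.q0_surjective ((lvH1mk L A).comp (E.Ψ0 L hB)) (E.ker_q0_le L hB)

lemma δ0_q0 (hB : L.IsSmooth B) (b : E.P0) :
    E.δ0 L hB (E.q0 b) = lvH1mk L A (E.Ψ0 L hB b) :=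
  lvDescend_apply _ _ _ _ b

/-! ### The connecting map `δ¹ : H¹(C) → H²(A)` -/

/-- Level-constant 1-cochains of `B` whose image in `C` is a cocycle. -/
def P1 : AddSubgroup (G → B) := lvC1 L B ⊓ (lvZ1 L C).comap (E.mπ L).pull1

lemma mem_P1 {b : G → B} :
    b ∈ E.P1 L ↔ L.IsLC1 b ∧ IsCocycle₁ ((E.mπ L).pull1 b) := by
  constructor
  · rintro ⟨h1, h2⟩
    exact ⟨h1, h2.1⟩
  · rintro ⟨h1, h2⟩
    exact ⟨h1, h2, (E.mπ L).isLC1_pull1 h1⟩

/-- `P1 → Z¹(C)`. -/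
def toZ1C : E.P1 L →+ lvZ1 L C :=
  ((E.mπ L).pull1.comp (E.P1 L).subtype).codRestrict _ (fun b => b.2.2)

/-- `P1 → H¹(C)`. -/
def q1 : E.P1 L →+ lvH1 L C := (lvH1mk L C).comp (E.toZ1C L)

lemma q1_surjective : Function.Surjective (E.q1 L) := by
  intro x
  obtain ⟨c, rfl⟩ := lvH1mk_surjective x
  have hb : (fun g => E.sec (c.1 g)) ∈ E.P1 L := by
    rw [mem_P1]
    have h2 : (E.mπ L).pull1 (fun g => E.sec (c.1 g)) = c.1 := by
      funext g; exact E.π_sec _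
    refine ⟨c.2.2.comp E.sec, ?_⟩
    rw [h2]; exact c.2.1
  refine ⟨⟨_, hb⟩, ?_⟩
  show lvH1mk L C _ = lvH1mk L C c
  congr 1
  apply Subtype.ext
  funext g
  exact E.π_sec _

lemma π_lvD1_of_mem_P1 {b : G → B} (hb : b ∈ E.P1 L) (p : G × G) :
    E.π (lvD1 G B b p) = 0 := by
  have h := ((E.mem_P1 L).1 hb).2
  rw [isCocycle₁_iff_lvD1_eq_zero, ← LvMor.pull2_lvD1] at h
  exact congrFun h (p.1, p.2)

/-- `P1 → Z²(A)`, `b ↦ i⁻¹ (d¹ b)`. -/
noncomputable def Ψ1 (hB : L.IsSmooth B) : E.P1 L →+ lvZ2 L A :=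
  AddMonoidHom.mk' (fun b => ⟨E.desc2 (lvD1 G B b.1),
    E.isCocycle₂_desc2 (E.π_lvD1_of_mem_P1 L b.2) (isCocycle₂_lvD1 _),
    E.isLC2_desc2 L (isLC2_lvD1 hB b.2.1)⟩) (by
    intro b b'
    apply Subtype.ext
    funext p
    apply E.i_inj
    show E.i (E.desc2 (lvD1 G B (b + b' : E.P1 L).1) p)
      = E.i (E.desc2 (lvD1 G B b.1) p + E.desc2 (lvD1 G B b'.1) p)
    rw [map_add, E.i_desc2 (E.π_lvD1_of_mem_P1 L b.2), E.i_desc2 (E.π_lvD1_of_mem_P1 L b'.2),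
      E.i_desc2 (E.π_lvD1_of_mem_P1 L (b + b').2), AddSubgroup.coe_add, map_add]
    rfl)

lemma pull2_Ψ1 (hB : L.IsSmooth B) (b : E.P1 L) :
    (E.mi L).pull2 (E.Ψ1 L hB b : G × G → A) = lvD1 G B b.1 :=
  E.pull2_desc2 L (E.π_lvD1_of_mem_P1 L b.2)

lemma ker_q1_le (hB : L.IsSmooth B) :
    (E.q1 L).ker ≤ ((lvH2mk L A).comp (E.Ψ1 L hB)).ker := by
  intro b hb
  rw [AddMonoidHom.mem_ker] at hb ⊢
  rw [q1, AddMonoidHom.comp_apply, lvH1mk_eq_zero_iff] at hb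
  obtain ⟨c₀, hc₀⟩ := hb
  obtain ⟨b₀, rfl⟩ := E.π_surj c₀
  -- `b - d⁰ b₀` has values in `ker π`
  have hπ : ∀ g, E.π ((b.1 - lvD0 G B b₀) g) = 0 := by
    intro g
    have := congrFun hc₀ g
    simp only [lvD0_apply] at this
    have h2 : ((E.toZ1C L b : lvZ1 L C) : G → C) g = E.π (b.1 g) := rfl
    rw [h2] at this
    simp only [Pi.sub_apply, lvD0_apply, map_sub, E.π_equiv]
    rw [← this, sub_self]
  rw [AddMonoidHom.comp_apply, lvH2mk_eq_zero_iff]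
  refine ⟨E.desc1 (b.1 - lvD0 G B b₀),
    E.isLC1_desc1 L (b.2.1.sub (isLC1_lvD0 hB b₀)), ?_⟩
  apply E.pull2_mi_injective L
  rw [E.pull2_Ψ1 L hB, LvMor.pull2_lvD1, E.pull1_desc1 L hπ, map_sub, lvD1_lvD0, sub_zero]

/-- The connecting homomorphism `δ¹ : H¹(C) → H²(A)`. -/
noncomputable def δ1 (hB : L.IsSmooth B) : lvH1 L C →+ lvH2 L A :=
  lvDescend (E.q1 L) (E.q1_surjective L) ((lvH2mk L A).comp (E.Ψ1 L hB)) (E.ker_q1_le L hB)

lemma δ1_q1 (hB : L.IsSmooth B) (b : E.P1 L) :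
    E.δ1 L hB (E.q1 L b) = lvH2mk L A (E.Ψ1 L hB b) :=
  lvDescend_apply _ _ _ _ b

/-! ### Exactness -/

/-- Exactness at `H⁰(C)`. -/
theorem exact_H0C (hB : L.IsSmooth B) (c : lvH0 (G := G) C) :
    E.δ0 L hB c = 0 ↔ ∃ b : lvH0 (G := G) B, (E.mπ L).H0 b = c := by
  constructor
  · intro h
    obtain ⟨b, rfl⟩ := E.q0_surjective c
    rw [E.δ0_q0 L hB, lvH1mk_eq_zero_iff] at h
    obtain ⟨a, ha⟩ := h
    have h1 := congrArg (E.mi L).pull1 ha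
    rw [E.pull1_Ψ0 L hB, LvMor.pull1_lvD0] at h1
    have h2 : lvD0 G B (b.1 - E.i a) = 0 := by
      rw [map_sub]
      exact sub_eq_zero.2 h1.symm
    refine ⟨⟨b.1 - E.i a, fun g => ?_⟩, ?_⟩
    · have := congrFun h2 g
      simp only [lvD0_apply, Pi.zero_apply] at this
      exact sub_eq_zero.1 this
    · apply Subtype.ext
      show E.π (b.1 - E.i a) = E.π b.1
      rw [map_sub, E.π_i, sub_zero]
  · rintro ⟨b, rfl⟩
    have hb : b.1 ∈ E.P0 := fun g => by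
      show g • E.π b.1 = E.π b.1
      rw [← E.π_equiv, b.2 g]
    have h1 : (E.mπ L).H0 b = E.q0 ⟨b.1, hb⟩ := rfl
    rw [h1, E.δ0_q0 L hB, lvH1mk_eq_zero_iff]
    refine ⟨0, ?_⟩
    apply E.pull1_mi_injective L
    rw [E.pull1_Ψ0 L hB, map_zero, map_zero]
    funext g
    simp only [lvD0_apply, Pi.zero_apply, b.2 g, sub_self]

/-- Exactness at `H¹(A)`. -/
theorem exact_H1A (hB : L.IsSmooth B) (x : lvH1 L A) :
    (E.mi L).H1 x = 0 ↔ ∃ c : lvH0 (G := G) C, E.δ0 L hB c = x := by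
  constructor
  · intro h
    obtain ⟨a, rfl⟩ := lvH1mk_surjective x
    rw [LvMor.H1_mk, lvH1mk_eq_zero_iff] at h
    obtain ⟨b₀, hb₀⟩ := h
    rw [LvMor.Z1_coe] at hb₀
    have hb₀P : b₀ ∈ E.P0 := by
      intro g
      have := congrArg E.π (congrFun hb₀ g)
      rw [E.mi_pull1_apply, E.π_i, lvD0_apply, map_sub, E.π_equiv] at this
      exact sub_eq_zero.1 this
    refine ⟨E.q0 ⟨b₀, hb₀P⟩, ?_⟩
    rw [E.δ0_q0 L hB]
    congr 1
    apply Subtype.ext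
    apply E.pull1_mi_injective L
    rw [E.pull1_Ψ0 L hB]
    exact hb₀
  · rintro ⟨c, rfl⟩
    obtain ⟨b, rfl⟩ := E.q0_surjective c
    rw [E.δ0_q0 L hB, LvMor.H1_mk, lvH1mk_eq_zero_iff]
    refine ⟨b.1, ?_⟩
    rw [LvMor.Z1_coe, E.pull1_Ψ0 L hB]

/-- Exactness at `H¹(B)`. -/
theorem exact_H1B (hB : L.IsSmooth B) (x : lvH1 L B) :
    (E.mπ L).H1 x = 0 ↔ ∃ y : lvH1 L A, (E.mi L).H1 y = x := by
  constructor
  · intro h
    obtain ⟨b, rfl⟩ := lvH1mk_surjective x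
    rw [LvMor.H1_mk, lvH1mk_eq_zero_iff] at h
    obtain ⟨c₀, hc₀⟩ := h
    obtain ⟨b₀, rfl⟩ := E.π_surj c₀
    rw [LvMor.Z1_coe] at hc₀
    have hπ : ∀ g, E.π ((b.1 - lvD0 G B b₀) g) = 0 := by
      intro g
      have := congrFun hc₀ g
      rw [E.mπ_pull1_apply, lvD0_apply] at this
      simp only [Pi.sub_apply, lvD0_apply, map_sub, E.π_equiv]
      rw [← this, sub_self]
    have hcoc : IsCocycle₁ (b.1 - lvD0 G B b₀) :=
      ((lvZ1 L B).sub_mem b.2 (lvB1_le_lvZ1 hB ⟨b₀, rfl⟩)).1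
    have hlc : L.IsLC1 (b.1 - lvD0 G B b₀) := b.2.2.sub (isLC1_lvD0 hB b₀)
    refine ⟨lvH1mk L A ⟨E.desc1 (b.1 - lvD0 G B b₀), E.isCocycle₁_desc1 hπ hcoc,
      E.isLC1_desc1 L hlc⟩, ?_⟩
    rw [LvMor.H1_mk, lvH1mk_eq_iff]
    refine ⟨-b₀, ?_⟩
    rw [LvMor.Z1_coe]
    show _ = (E.mi L).pull1 (E.desc1 (b.1 - lvD0 G B b₀)) - b.1
    rw [E.pull1_desc1 L hπ, map_neg]
    abel
  · rintro ⟨y, rfl⟩
    obtain ⟨a, rfl⟩ := lvH1mk_surjective y
    rw [LvMor.H1_mk, LvMor.H1_mk, lvH1mk_eq_zero_iff]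
    refine ⟨0, ?_⟩
    rw [map_zero]
    funext g
    exact (E.π_i _).symm

/-- Exactness at `H¹(C)`. -/
theorem exact_H1C (hB : L.IsSmooth B) (x : lvH1 L C) :
    E.δ1 L hB x = 0 ↔ ∃ y : lvH1 L B, (E.mπ L).H1 y = x := by
  constructor
  · intro h
    obtain ⟨b, rfl⟩ := E.q1_surjective L x
    rw [E.δ1_q1 L hB, lvH2mk_eq_zero_iff] at h
    obtain ⟨a, ha, hab⟩ := h
    have h1 := congrArg (E.mi L).pull2 hab
    rw [E.pull2_Ψ1 L hB, LvMor.pull2_lvD1] at h1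
    -- `b' = b - i ∘ a` is a level-constant cocycle of `B` lifting the same class
    have hcoc : IsCocycle₁ (b.1 - (E.mi L).pull1 a) := by
      rw [isCocycle₁_iff_lvD1_eq_zero, map_sub, h1, sub_self]
    have hlc : L.IsLC1 (b.1 - (E.mi L).pull1 a) := b.2.1.sub ((E.mi L).isLC1_pull1 ha)
    refine ⟨lvH1mk L B ⟨_, hcoc, hlc⟩, ?_⟩
    rw [LvMor.H1_mk]
    show lvH1mk L C _ = lvH1mk L C (E.toZ1C L b)
    congr 1
    apply Subtype.ext
    funext g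
    show E.π (b.1 g - E.i (a g)) = E.π (b.1 g)
    rw [map_sub, E.π_i, sub_zero]
  · rintro ⟨y, rfl⟩
    obtain ⟨b, rfl⟩ := lvH1mk_surjective y
    have hb : b.1 ∈ E.P1 L := (E.mem_P1 L).2 ⟨b.2.2, (E.mπ L).isCocycle₁_pull1 b.2.1⟩
    have h1 : (E.mπ L).H1 (lvH1mk L B b) = E.q1 L ⟨b.1, hb⟩ := rfl
    rw [h1, E.δ1_q1 L hB, lvH2mk_eq_zero_iff]
    refine ⟨0, LevelSys.isLC1_const (0 : A), ?_⟩
    apply E.pull2_mi_injective L
    rw [E.pull2_Ψ1 L hB, map_zero, map_zero]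
    exact ((isCocycle₁_iff_lvD1_eq_zero _).1 b.2.1).symm

/-- Exactness at `H²(A)`. -/
theorem exact_H2A (hB : L.IsSmooth B) (y : lvH2 L A) :
    (E.mi L).H2 y = 0 ↔ ∃ x : lvH1 L C, E.δ1 L hB x = y := by
  constructor
  · intro h
    obtain ⟨a, rfl⟩ := lvH2mk_surjective y
    rw [LvMor.H2_mk, lvH2mk_eq_zero_iff] at h
    obtain ⟨b, hb, hba⟩ := h
    rw [LvMor.Z2_coe] at hba
    have hbP : b ∈ E.P1 L := by
      rw [mem_P1]
      refine ⟨hb, ?_⟩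
      rw [isCocycle₁_iff_lvD1_eq_zero, ← LvMor.pull2_lvD1, hba]
      funext ⟨g, g'⟩
      exact E.π_i _
    refine ⟨E.q1 L ⟨b, hbP⟩, ?_⟩
    rw [E.δ1_q1 L hB]
    congr 1
    apply Subtype.ext
    apply E.pull2_mi_injective L
    rw [E.pull2_Ψ1 L hB]
    exact hba
  · rintro ⟨x, rfl⟩
    obtain ⟨b, rfl⟩ := E.q1_surjective L x
    rw [E.δ1_q1 L hB, LvMor.H2_mk, lvH2mk_eq_zero_iff]
    refine ⟨b.1, b.2.1, ?_⟩
    rw [LvMor.Z2_coe, E.pull2_Ψ1 L hB]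

/-- Exactness at `H²(B)`. -/
theorem exact_H2B (hB : L.IsSmooth B) (z : lvH2 L B) :
    (E.mπ L).H2 z = 0 ↔ ∃ y : lvH2 L A, (E.mi L).H2 y = z := by
  constructor
  · intro h
    obtain ⟨b, rfl⟩ := lvH2mk_surjective z
    rw [LvMor.H2_mk, lvH2mk_eq_zero_iff] at h
    obtain ⟨c₁, hc₁, hcb⟩ := h
    rw [LvMor.Z2_coe] at hcb
    set b₁ : G → B := fun g => E.sec (c₁ g) with hb₁
    have hb₁lc : L.IsLC1 b₁ := hc₁.comp E.sec
    have hπb₁ : (E.mπ L).pull1 b₁ = c₁ := by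
      funext g; exact E.π_sec _
    have hπ : ∀ p, E.π ((b.1 - lvD1 G B b₁) p) = 0 := by
      intro p
      have h1 : (E.mπ L).pull2 (b.1 - lvD1 G B b₁) = 0 := by
        rw [map_sub, LvMor.pull2_lvD1, hπb₁, hcb, sub_self]
      exact congrFun h1 (p.1, p.2)
    have hmem : b.1 - lvD1 G B b₁ ∈ lvZ2 L B :=
      (lvZ2 L B).sub_mem b.2 (lvB2_le_lvZ2 hB ⟨b₁, hb₁lc, rfl⟩)
    refine ⟨lvH2mk L A ⟨E.desc2 (b.1 - lvD1 G B b₁), E.isCocycle₂_desc2 hπ hmem.1,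
      E.isLC2_desc2 L hmem.2⟩, ?_⟩
    rw [LvMor.H2_mk, lvH2mk_eq_iff]
    refine ⟨-b₁, hb₁lc.neg, ?_⟩
    rw [LvMor.Z2_coe]
    show _ = (E.mi L).pull2 (E.desc2 (b.1 - lvD1 G B b₁)) - b.1
    rw [E.pull2_desc2 L hπ, map_neg]
    abel
  · rintro ⟨y, rfl⟩
    obtain ⟨a, rfl⟩ := lvH2mk_surjective y
    rw [LvMor.H2_mk, LvMor.H2_mk, lvH2mk_eq_zero_iff]
    refine ⟨0, LevelSys.isLC1_const (0 : C), ?_⟩
    rw [map_zero]
    funext ⟨g, g'⟩
    exact (E.π_i _).symm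

end LvSES

/-! ### Naturality of the connecting maps -/

/-- A morphism of short exact sequences, possibly changing the group and the level system. -/
structure LvSESMor {G : Type*} [Group G] {A B C : Type*} [AddCommGroup A] [DistribMulAction G A]
    [AddCommGroup B] [DistribMulAction G B] [AddCommGroup C] [DistribMulAction G C]
    (E : LvSES G A B C) (L : LevelSys G)
    {H : Type*} [Group H] {A' B' C' : Type*} [AddCommGroup A'] [DistribMulAction H A']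
    [AddCommGroup B'] [DistribMulAction H B'] [AddCommGroup C'] [DistribMulAction H C']
    (E' : LvSES H A' B' C') (LH : LevelSys H) where
  mA : LvMor L A LH A'
  mB : LvMor L B LH B'
  mC : LvMor L C LH C'
  fAB : mA.f = mB.f
  fBC : mB.f = mC.f
  comm_i : ∀ a : A, mB.φ (E.i a) = E'.i (mA.φ a)
  comm_π : ∀ b : B, mC.φ (E.π b) = E'.π (mB.φ b)

namespace LvSESMor

variable {G : Type*} [Group G] {A B C : Type*} [AddCommGroup A] [DistribMulAction G A]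
  [AddCommGroup B] [DistribMulAction G B] [AddCommGroup C] [DistribMulAction G C]
  {E : LvSES G A B C} {L : LevelSys G}
  {H : Type*} [Group H] {A' B' C' : Type*} [AddCommGroup A'] [DistribMulAction H A']
  [AddCommGroup B'] [DistribMulAction H B'] [AddCommGroup C'] [DistribMulAction H C']
  {E' : LvSES H A' B' C'} {LH : LevelSys H} (t : LvSESMor E L E' LH)

lemma pull1_mπ (b : G → B) :
    (E'.mπ LH).pull1 (t.mB.pull1 b) = t.mC.pull1 ((E.mπ L).pull1 b) := by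
  funext h
  show E'.π (t.mB.φ (b (t.mB.f h))) = t.mC.φ (E.π (b (t.mC.f h)))
  rw [t.comm_π, t.fBC]

lemma pull1_mi (a : G → A) :
    (E'.mi LH).pull1 (t.mA.pull1 a) = t.mB.pull1 ((E.mi L).pull1 a) := by
  funext h
  show E'.i (t.mA.φ (a (t.mA.f h))) = t.mB.φ (E.i (a (t.mB.f h)))
  rw [t.comm_i, t.fAB]

lemma pull2_mi (a : G × G → A) :
    (E'.mi LH).pull2 (t.mA.pull2 a) = t.mB.pull2 ((E.mi L).pull2 a) := by
  funext ⟨h, h'⟩
  show E'.i (t.mA.φ (a (t.mA.f h, t.mA.f h'))) = t.mB.φ (E.i (a (t.mB.f h, t.mB.f h')))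
  rw [t.comm_i, t.fAB]

/-- Naturality of `δ¹`. -/
theorem δ1_comm (hB : L.IsSmooth B) (hB' : LH.IsSmooth B') (x : lvH1 L C) :
    t.mA.H2 (E.δ1 L hB x) = E'.δ1 LH hB' (t.mC.H1 x) := by
  obtain ⟨b, rfl⟩ := E.q1_surjective L x
  have hb' : t.mB.pull1 b.1 ∈ E'.P1 LH := by
    rw [LvSES.mem_P1]
    refine ⟨t.mB.isLC1_pull1 b.2.1, ?_⟩
    rw [t.pull1_mπ]
    exact t.mC.isCocycle₁_pull1 ((E.mem_P1 L).1 b.2).2
  have h1 : t.mC.H1 (E.q1 L b) = E'.q1 LH ⟨_, hb'⟩ := by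
    show lvH1mk LH C' _ = lvH1mk LH C' _
    congr 1
    apply Subtype.ext
    exact (t.pull1_mπ b.1).symm
  rw [h1, E.δ1_q1 L hB, E'.δ1_q1 LH hB', LvMor.H2_mk]
  congr 1
  apply Subtype.ext
  apply E'.pull2_mi_injective LH
  rw [LvMor.Z2_coe, t.pull2_mi, E.pull2_Ψ1 L hB, E'.pull2_Ψ1 LH hB', LvMor.pull2_lvD1]

/-- Naturality of `δ⁰`. -/
theorem δ0_comm (hB : L.IsSmooth B) (hB' : LH.IsSmooth B') (c : lvH0 (G := G) C) :
    t.mA.H1 (E.δ0 L hB c) = E'.δ0 LH hB' (t.mC.H0 c) := by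
  obtain ⟨b, rfl⟩ := E.q0_surjective c
  have hb' : t.mB.φ b.1 ∈ E'.P0 := by
    intro h
    show h • E'.π (t.mB.φ b.1) = E'.π (t.mB.φ b.1)
    rw [← t.comm_π]
    exact ((t.mC.H0 (E.q0 b)).2 h)
  have h1 : t.mC.H0 (E.q0 b) = E'.q0 ⟨_, hb'⟩ := by
    apply Subtype.ext
    exact t.comm_π b.1
  rw [h1, E.δ0_q0 L hB, E'.δ0_q0 LH hB', LvMor.H1_mk]
  congr 1
  apply Subtype.ext
  apply E'.pull1_mi_injective LH
  rw [LvMor.Z1_coe, t.pull1_mi, E.pull1_Ψ0 L hB, E'.pull1_Ψ0 LH hB', LvMor.pull1_lvD0]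

end LvSESMor

end Fermat.Agent.S55
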