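import Fermat.Agent.S55.Level.Cohomology

/-!
# Level cohomology and finite quotients (block [F] of S55)

* `LvQuot L X Γ X'`: a finite quotient `q : G → Γ` whose kernel contains a level, together with a
  `Γ`-module `X'` identified (through `φ`) with the `ker q`-fixed points of `X`.
* inflation `Q.mor : LvMor (LevelSys.trivial Γ) X' L X`, injective on `H¹`;
* every class of `lvH1`/`lvH2` is inflated from every sufficiently small finite level;
* a class of a finite level which dies in `lvH2 L X` dies at every sufficiently small finite level;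
* for a finite group `Γ : Type` the level cohomology of the trivial level system is Mathlib's
  `groupCohomology` of `Rep ℤ Γ` (`lvH1Equiv`, `lvH2Equiv`), compatibly with `groupCohomology.map`.
-/

set_option autoImplicit false

namespace Fermat.Agent.S55

open groupCohomology

universe u₁ u₂

section Invariance

variable {G : Type*} [Group G] {X : Type*} [AddCommGroup X] [DistribMulAction G X]

/-- A 1-cochain is `W`-invariant: constant on right `W`-cosets, with `W`-fixed values. -/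
def lvInv1 (W : Subgroup G) (c : G → X) : Prop :=
  (∀ g : G, ∀ s ∈ W, c (g * s) = c g) ∧ (∀ g : G, ∀ s ∈ W, s • c g = c g)

/-- A 2-cochain is `W`-invariant: constant on right `W`-cosets in both variables, with `W`-fixed
values. -/
def lvInv2 (W : Subgroup G) (c : G × G → X) : Prop :=
  (∀ g g' : G, ∀ s ∈ W, ∀ s' ∈ W, c (g * s, g' * s') = c (g, g')) ∧
    (∀ p : G × G, ∀ s ∈ W, s • c p = c p)

lemma lvInv1.mono {W W' : Subgroup G} {c : G → X} (hc : lvInv1 W c) (h : W' ≤ W) :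
    lvInv1 W' c :=
  ⟨fun g s hs => hc.1 g s (h hs), fun g s hs => hc.2 g s (h hs)⟩

lemma lvInv2.mono {W W' : Subgroup G} {c : G × G → X} (hc : lvInv2 W c) (h : W' ≤ W) :
    lvInv2 W' c :=
  ⟨fun g g' s hs s' hs' => hc.1 g g' s (h hs) s' (h hs'), fun p s hs => hc.2 p s (h hs)⟩

variable {L : LevelSys G}

/-- A level-constant 1-cochain with values in a smooth module is invariant under a normal level,
which can be chosen inside a given level. -/
lemma LevelSys.IsLC1.exists_lvInv1 (hX : L.IsSmooth X) {c : G → X} (hc : L.IsLC1 c)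
    {U₀ : Subgroup G} (hU₀ : U₀ ∈ L.levels) :
    ∃ W ∈ L.levels, W ≤ U₀ ∧ W.Normal ∧ lvInv1 W c := by
  obtain ⟨U, hU, h⟩ := hc
  obtain ⟨V, hV, hVUU₀⟩ := L.directed U hU U₀ hU₀
  obtain ⟨W, hW, hWV, hWn, hfix⟩ :=
    hX.exists_level L (LevelSys.IsLC1.finite_range ⟨U, hU, h⟩) hV
  exact ⟨W, hW, hWV.trans (hVUU₀.trans inf_le_right), hWn,
    fun g s hs => h g s (hVUU₀ (hWV hs)).1, fun g s hs => hfix s hs (c g) ⟨g, rfl⟩⟩

/-- A level-constant 2-cochain with values in a smooth module is invariant under a normal level,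
which can be chosen inside a given level. -/
lemma LevelSys.IsLC2.exists_lvInv2 (hX : L.IsSmooth X) {c : G × G → X} (hc : L.IsLC2 c)
    {U₀ : Subgroup G} (hU₀ : U₀ ∈ L.levels) :
    ∃ W ∈ L.levels, W ≤ U₀ ∧ W.Normal ∧ lvInv2 W c := by
  obtain ⟨U, hU, h⟩ := hc
  obtain ⟨V, hV, hVUU₀⟩ := L.directed U hU U₀ hU₀
  obtain ⟨W, hW, hWV, hWn, hfix⟩ :=
    hX.exists_level L (LevelSys.IsLC2.finite_range ⟨U, hU, h⟩) hV
  exact ⟨W, hW, hWV.trans (hVUU₀.trans inf_le_right), hWn,
    fun g g' s hs s' hs' => h g g' s (hVUU₀ (hWV hs)).1 s' (hVUU₀ (hWV hs')).1,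
    fun p s hs => hfix s hs (c p) ⟨p, rfl⟩⟩

/-- A 1-cocycle which is constant on right cosets of a normal subgroup has fixed values. -/
lemma lvInv1_of_isCocycle₁ {W : Subgroup G} [hW : W.Normal] {c : G → X} (hc : IsCocycle₁ c)
    (h : ∀ g : G, ∀ s ∈ W, c (g * s) = c g) : lvInv1 W c := by
  refine ⟨h, fun g s hs => ?_⟩
  have h1 : c 1 = 0 := by
    have := hc 1 1
    simpa using this
  have hs0 : c s = 0 := by
    have := h 1 s hs
    rwa [one_mul, h1] at this
  have h2 : c (s * g) = s • c g := by rw [hc s g, hs0, add_zero]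
  have h3 : c (s * g) = c g := by
    have : s * g = g * (g⁻¹ * s * g) := by group
    rw [this]
    refine h g _ ?_
    have := hW.conj_mem s hs g⁻¹
    simpa using this
  rw [← h2, h3]

end Invariance

/-- Every 1-cochain of a finite group is level-constant for the trivial level system. -/
lemma LevelSys.isLC1_trivial {Γ : Type*} [Group Γ] [Finite Γ] {X' : Type*} (c : Γ → X') :
    (LevelSys.trivial Γ).IsLC1 c :=
  ⟨⊥, rfl, fun g s hs => by rw [Subgroup.mem_bot.mp hs, mul_one]⟩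

/-- Every 2-cochain of a finite group is level-constant for the trivial level system. -/
lemma LevelSys.isLC2_trivial {Γ : Type*} [Group Γ] [Finite Γ] {X' : Type*} (c : Γ × Γ → X') :
    (LevelSys.trivial Γ).IsLC2 c :=
  ⟨⊥, rfl, fun g g' s hs s' hs' => by
    rw [Subgroup.mem_bot.mp hs, Subgroup.mem_bot.mp hs', mul_one, mul_one]⟩

section Quot

variable {G : Type*} [Group G]

/-- A finite quotient of `G` below the level system, with a model `X'` of the fixed points of its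
kernel. -/
structure LvQuot (L : LevelSys G) (X : Type*) [AddCommGroup X] [DistribMulAction G X]
    (Γ : Type*) [Group Γ] (X' : Type*) [AddCommGroup X'] [DistribMulAction Γ X'] where
  q : G →* Γ
  q_surj : Function.Surjective q
  level : ∃ U ∈ L.levels, U ≤ q.ker
  φ : X' →+ X
  φ_inj : Function.Injective φ
  equivariant : ∀ (g : G) (x : X'), φ (q g • x) = g • φ x
  range_eq : ∀ x : X, (∀ u ∈ q.ker, u • x = x) → ∃ x' : X', φ x' = x

namespace LvQuot

variable {L : LevelSys G} {X : Type*} [AddCommGroup X] [DistribMulAction G X]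
  {Γ : Type*} [Group Γ] [Finite Γ] {X' : Type*} [AddCommGroup X'] [DistribMulAction Γ X']
  (Q : LvQuot L X Γ X')

/-- Inflation from the finite level. -/
def mor : LvMor (LevelSys.trivial Γ) X' L X where
  f := Q.q
  φ := Q.φ
  equivariant := Q.equivariant
  levels := by
    rintro U rfl
    obtain ⟨V, hV, hVq⟩ := Q.level
    exact ⟨V, hV, hVq⟩

@[simp] lemma mor_f : Q.mor.f = Q.q := rfl
@[simp] lemma mor_φ : Q.mor.φ = Q.φ := rfl

omit [Finite Γ] in
lemma fixed (x' : X') {u : G} (hu : u ∈ Q.q.ker) : u • Q.φ x' = Q.φ x' := by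
  rw [← Q.equivariant, MonoidHom.mem_ker.mp hu, one_smul]

lemma pull1_injective : Function.Injective Q.mor.pull1 := by
  intro c c' h
  funext γ
  obtain ⟨g, rfl⟩ := Q.q_surj γ
  exact Q.φ_inj (congrFun h g)

lemma pull2_injective : Function.Injective Q.mor.pull2 := by
  intro c c' h
  funext ⟨γ, γ'⟩
  obtain ⟨g, rfl⟩ := Q.q_surj γ
  obtain ⟨g', rfl⟩ := Q.q_surj γ'
  exact Q.φ_inj (congrFun h (g, g'))

lemma isCocycle₁_of_pull1 {c : Γ → X'} (hc : IsCocycle₁ (Q.mor.pull1 c)) : IsCocycle₁ c := by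
  rw [isCocycle₁_iff_lvD1_eq_zero] at hc ⊢
  apply Q.pull2_injective
  rw [LvMor.pull2_lvD1, hc, map_zero]

lemma isCocycle₂_of_pull2 {c : Γ × Γ → X'} (hc : IsCocycle₂ (Q.mor.pull2 c)) :
    IsCocycle₂ c := by
  intro γ γ' γ''
  obtain ⟨g, rfl⟩ := Q.q_surj γ
  obtain ⟨g', rfl⟩ := Q.q_surj γ'
  obtain ⟨g'', rfl⟩ := Q.q_surj γ''
  apply Q.φ_inj
  have := hc g g' g''
  simp only [LvMor.pull2_apply, mor_f, mor_φ, map_mul, ← Q.equivariant, ← map_add] at this
  exact this

/-- Descent of invariant 1-cochains. -/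
lemma exists_pull1 {c : G → X} (hc : lvInv1 Q.q.ker c) : ∃ c' : Γ → X', Q.mor.pull1 c' = c := by
  have hex : ∀ γ : Γ, ∃ x' : X', Q.φ x' = c (Function.surjInv Q.q_surj γ) :=
    fun γ => Q.range_eq _ (fun u hu => hc.2 _ u hu)
  choose c' hc' using hex
  refine ⟨c', ?_⟩
  funext g
  rw [LvMor.pull1_apply, mor_φ, mor_f, hc']
  have hk : g⁻¹ * Function.surjInv Q.q_surj (Q.q g) ∈ Q.q.ker := by
    rw [MonoidHom.mem_ker, map_mul, map_inv, Function.surjInv_eq Q.q_surj, inv_mul_cancel]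
  have := hc.1 g _ hk
  rwa [mul_inv_cancel_left] at this

/-- Descent of invariant 2-cochains. -/
lemma exists_pull2 {c : G × G → X} (hc : lvInv2 Q.q.ker c) :
    ∃ c' : Γ × Γ → X', Q.mor.pull2 c' = c := by
  have hex : ∀ p : Γ × Γ, ∃ x' : X',
      Q.φ x' = c (Function.surjInv Q.q_surj p.1, Function.surjInv Q.q_surj p.2) :=
    fun p => Q.range_eq _ (fun u hu => hc.2 _ u hu)
  choose c' hc' using hex
  refine ⟨c', ?_⟩
  funext ⟨g, g'⟩
  rw [LvMor.pull2_apply, mor_φ, mor_f, hc']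
  have hk : ∀ g : G, g⁻¹ * Function.surjInv Q.q_surj (Q.q g) ∈ Q.q.ker := by
    intro g
    rw [MonoidHom.mem_ker, map_mul, map_inv, Function.surjInv_eq Q.q_surj, inv_mul_cancel]
  have := hc.1 g g' _ (hk g) _ (hk g')
  rwa [mul_inv_cancel_left, mul_inv_cancel_left] at this

/-- Inflation from a finite level is injective on `H¹`. -/
theorem H1_injective : Function.Injective Q.mor.H1 := by
  rw [injective_iff_map_eq_zero]
  intro y hy
  obtain ⟨c, rfl⟩ := lvH1mk_surjective y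
  rw [LvMor.H1_mk, lvH1mk_eq_zero_iff] at hy
  obtain ⟨x, hx⟩ := hy
  rw [LvMor.Z1_coe] at hx
  have hc1 : (c : Γ → X') 1 = 0 := by
    have := c.2.1 1 1
    simpa using this
  have hfix : ∀ u ∈ Q.q.ker, u • x = x := by
    intro u hu
    have := congrFun hx u
    rw [lvD0_apply, LvMor.pull1_apply, mor_f, MonoidHom.mem_ker.mp hu, hc1, map_zero] at this
    exact sub_eq_zero.mp this
  obtain ⟨x', rfl⟩ := Q.range_eq x hfix
  rw [lvH1mk_eq_zero_iff]
  refine ⟨x', Q.pull1_injective ?_⟩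
  rw [LvMor.pull1_lvD0]
  exact hx

/-- A cocycle invariant under `ker q` is inflated from `Γ` (degree 1). -/
theorem mem_range_H1 (c : lvZ1 L X) (hc : lvInv1 Q.q.ker (c : G → X)) :
    lvH1mk L X c ∈ Q.mor.H1.range := by
  obtain ⟨c', hc'⟩ := Q.exists_pull1 hc
  have hcoc : IsCocycle₁ c' := Q.isCocycle₁_of_pull1 (by rw [hc']; exact c.2.1)
  refine ⟨lvH1mk _ _ ⟨c', hcoc, LevelSys.isLC1_trivial c'⟩, ?_⟩
  rw [LvMor.H1_mk]
  congr 1
  exact Subtype.ext hc'

/-- A cocycle invariant under `ker q` is inflated from `Γ` (degree 2). -/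
theorem mem_range_H2 (c : lvZ2 L X) (hc : lvInv2 Q.q.ker (c : G × G → X)) :
    lvH2mk L X c ∈ Q.mor.H2.range := by
  obtain ⟨c', hc'⟩ := Q.exists_pull2 hc
  have hcoc : IsCocycle₂ c' := Q.isCocycle₂_of_pull2 (by rw [hc']; exact c.2.1)
  refine ⟨lvH2mk _ _ ⟨c', hcoc, LevelSys.isLC2_trivial c'⟩, ?_⟩
  rw [LvMor.H2_mk]
  congr 1
  exact Subtype.ext hc'

section Trans

variable {Γ₂ : Type*} [Group Γ₂] [Finite Γ₂] {X₂' : Type*} [AddCommGroup X₂']
  [DistribMulAction Γ₂ X₂'] (Q₂ : LvQuot L X Γ₂ X₂')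
  (t : LvMor (LevelSys.trivial Γ) X' (LevelSys.trivial Γ₂) X₂')
  (hf : ∀ g : G, t.f (Q₂.q g) = Q.q g) (hφ : ∀ x' : X', Q₂.φ (t.φ x') = Q.φ x')

include hf hφ in
lemma pull1_trans (c : Γ → X') : Q₂.mor.pull1 (t.pull1 c) = Q.mor.pull1 c := by
  funext g
  simp only [LvMor.pull1_apply, mor_f, mor_φ, hf, hφ]

include hf hφ in
lemma pull2_trans (c : Γ × Γ → X') : Q₂.mor.pull2 (t.pull2 c) = Q.mor.pull2 c := by
  funext ⟨g, g'⟩
  simp only [LvMor.pull2_apply, mor_f, mor_φ, hf, hφ]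

include hf hφ in
/-- Inflation to `G` factors through a transition map between finite levels (degree 1). -/
lemma H1_trans (y : lvH1 (LevelSys.trivial Γ) X') : Q₂.mor.H1 (t.H1 y) = Q.mor.H1 y := by
  obtain ⟨c, rfl⟩ := lvH1mk_surjective y
  rw [LvMor.H1_mk, LvMor.H1_mk, LvMor.H1_mk]
  congr 1
  apply Subtype.ext
  rw [LvMor.Z1_coe, LvMor.Z1_coe, LvMor.Z1_coe]
  exact Q.pull1_trans Q₂ t hf hφ _

include hf hφ in
/-- Inflation to `G` factors through a transition map between finite levels (degree 2). -/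
lemma H2_trans (y : lvH2 (LevelSys.trivial Γ) X') : Q₂.mor.H2 (t.H2 y) = Q.mor.H2 y := by
  obtain ⟨c, rfl⟩ := lvH2mk_surjective y
  rw [LvMor.H2_mk, LvMor.H2_mk, LvMor.H2_mk]
  congr 1
  apply Subtype.ext
  rw [LvMor.Z2_coe, LvMor.Z2_coe, LvMor.Z2_coe]
  exact Q.pull2_trans Q₂ t hf hφ _

include hf hφ in
/-- If the inflation of a 2-cocycle of level `Γ` is the coboundary of a `ker q₂`-invariant cochain,
then the cocycle dies at level `Γ₂`. -/
theorem trans_H2_eq_zero (c : lvZ2 (LevelSys.trivial Γ) X') {b : G → X}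
    (hb : lvInv1 Q₂.q.ker b) (hbc : lvD1 G X b = Q.mor.pull2 (c : Γ × Γ → X')) :
    t.H2 (lvH2mk _ _ c) = 0 := by
  obtain ⟨b₂, rfl⟩ := Q₂.exists_pull1 hb
  rw [LvMor.H2_mk, lvH2mk_eq_zero_iff]
  refine ⟨b₂, LevelSys.isLC1_trivial b₂, Q₂.pull2_injective ?_⟩
  rw [LvMor.pull2_lvD1, hbc, LvMor.Z2_coe, Q.pull2_trans Q₂ t hf hφ]

end Trans

/-- A class of a finite level which dies in `lvH2 L X` is killed by the coboundary of a cochain
invariant under a normal level (which can be chosen inside a given level). -/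
theorem exists_level_of_H2_eq_zero (hX : L.IsSmooth X) (c : lvZ2 (LevelSys.trivial Γ) X')
    (hc : Q.mor.H2 (lvH2mk _ _ c) = 0) {U₀ : Subgroup G} (hU₀ : U₀ ∈ L.levels) :
    ∃ W ∈ L.levels, W ≤ U₀ ∧ W.Normal ∧ ∃ b : G → X, lvInv1 W b ∧
      lvD1 G X b = Q.mor.pull2 (c : Γ × Γ → X') := by
  rw [LvMor.H2_mk, lvH2mk_eq_zero_iff] at hc
  obtain ⟨b, hb, hbc⟩ := hc
  obtain ⟨W, hW, hWU₀, hWn, hbW⟩ := hb.exists_lvInv1 hX hU₀
  exact ⟨W, hW, hWU₀, hWn, b, hbW, hbc⟩

/-- A class of a finite level dies in `lvH2 L X` iff it dies at every sufficiently small finite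
level. -/
theorem exists_level_forall_trans_H2_eq_zero (hX : L.IsSmooth X)
    (y : lvH2 (LevelSys.trivial Γ) X') (hy : Q.mor.H2 y = 0) {U₀ : Subgroup G}
    (hU₀ : U₀ ∈ L.levels) :
    ∃ W ∈ L.levels, W ≤ U₀ ∧ W.Normal ∧
      ∀ {Γ₂ : Type u₁} [Group Γ₂] [Finite Γ₂] {X₂' : Type u₂} [AddCommGroup X₂']
        [DistribMulAction Γ₂ X₂'] (Q₂ : LvQuot L X Γ₂ X₂')
        (t : LvMor (LevelSys.trivial Γ) X' (LevelSys.trivial Γ₂) X₂'),
        (∀ g : G, t.f (Q₂.q g) = Q.q g) → (∀ x' : X', Q₂.φ (t.φ x') = Q.φ x') →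
        Q₂.q.ker ≤ W → t.H2 y = 0 := by
  obtain ⟨c, rfl⟩ := lvH2mk_surjective y
  obtain ⟨W, hW, hWU₀, hWn, b, hbW, hbc⟩ := Q.exists_level_of_H2_eq_zero hX c hy hU₀
  refine ⟨W, hW, hWU₀, hWn, ?_⟩
  intro Γ₂ _ _ X₂' _ _ Q₂ t hf hφ hQ₂
  exact Q.trans_H2_eq_zero Q₂ t hf hφ c (hbW.mono hQ₂) hbc

end LvQuot

/-- Every class of `lvH1` is represented by a cocycle invariant under a normal level. -/
theorem lvH1_exists_rep {L : LevelSys G} {X : Type*} [AddCommGroup X] [DistribMulAction G X]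
    (x : lvH1 L X) {U₀ : Subgroup G} (hU₀ : U₀ ∈ L.levels) :
    ∃ W ∈ L.levels, W ≤ U₀ ∧ W.Normal ∧ ∃ c : lvZ1 L X, lvH1mk L X c = x ∧
      lvInv1 W (c : G → X) := by
  obtain ⟨c, rfl⟩ := lvH1mk_surjective x
  obtain ⟨U, hU, h⟩ := c.2.2
  obtain ⟨W, hW, hWUU₀, hWn⟩ := L.exists_normal_le_inf hU hU₀
  exact ⟨W, hW, hWUU₀.trans inf_le_right, hWn, c, rfl,
    lvInv1_of_isCocycle₁ c.2.1 (fun g s hs => h g s (hWUU₀ hs).1)⟩

/-- Every class of `lvH2` of a smooth module is represented by a cocycle invariant under a normal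
level. -/
theorem lvH2_exists_rep {L : LevelSys G} {X : Type*} [AddCommGroup X] [DistribMulAction G X]
    (hX : L.IsSmooth X) (x : lvH2 L X) {U₀ : Subgroup G} (hU₀ : U₀ ∈ L.levels) :
    ∃ W ∈ L.levels, W ≤ U₀ ∧ W.Normal ∧ ∃ c : lvZ2 L X, lvH2mk L X c = x ∧
      lvInv2 W (c : G × G → X) := by
  obtain ⟨c, rfl⟩ := lvH2mk_surjective x
  obtain ⟨W, hW, hWU₀, hWn, hcW⟩ := c.2.2.exists_lvInv2 hX hU₀
  exact ⟨W, hW, hWU₀, hWn, c, rfl, hcW⟩

/-- Every class of `lvH1` is inflated from every sufficiently small finite level. -/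
theorem lvH1_exists_level {L : LevelSys G} {X : Type*} [AddCommGroup X] [DistribMulAction G X]
    (x : lvH1 L X) {U₀ : Subgroup G} (hU₀ : U₀ ∈ L.levels) :
    ∃ W ∈ L.levels, W ≤ U₀ ∧ W.Normal ∧
      ∀ {Γ : Type u₁} [Group Γ] [Finite Γ] {X' : Type u₂} [AddCommGroup X']
        [DistribMulAction Γ X'] (Q : LvQuot L X Γ X'), Q.q.ker ≤ W → x ∈ Q.mor.H1.range := by
  obtain ⟨W, hW, hWU₀, hWn, c, rfl, hc⟩ := lvH1_exists_rep x hU₀
  refine ⟨W, hW, hWU₀, hWn, ?_⟩
  intro Γ _ _ X' _ _ Q hQ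
  exact Q.mem_range_H1 c (hc.mono hQ)

/-- Every class of `lvH2` of a smooth module is inflated from every sufficiently small finite
level. -/
theorem lvH2_exists_level {L : LevelSys G} {X : Type*} [AddCommGroup X] [DistribMulAction G X]
    (hX : L.IsSmooth X) (x : lvH2 L X) {U₀ : Subgroup G} (hU₀ : U₀ ∈ L.levels) :
    ∃ W ∈ L.levels, W ≤ U₀ ∧ W.Normal ∧
      ∀ {Γ : Type u₁} [Group Γ] [Finite Γ] {X' : Type u₂} [AddCommGroup X']
        [DistribMulAction Γ X'] (Q : LvQuot L X Γ X'), Q.q.ker ≤ W → x ∈ Q.mor.H2.range := by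
  obtain ⟨W, hW, hWU₀, hWn, c, rfl, hc⟩ := lvH2_exists_rep hX x hU₀
  refine ⟨W, hW, hWU₀, hWn, ?_⟩
  intro Γ _ _ X' _ _ Q hQ
  exact Q.mem_range_H2 c (hc.mono hQ)

end Quot

section CanonTrans

variable {G : Type*} [Group G] {L : LevelSys G} {X : Type*} [AddCommGroup X] [DistribMulAction G X]
  {Γ : Type*} [Group Γ] [Finite Γ] {X' : Type*} [AddCommGroup X'] [DistribMulAction Γ X']
  {Γ₂ : Type*} [Group Γ₂] [Finite Γ₂] {X₂' : Type*} [AddCommGroup X₂'] [DistribMulAction Γ₂ X₂']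
  (Q : LvQuot L X Γ X') (Q₂ : LvQuot L X Γ₂ X₂') (h : Q₂.q.ker ≤ Q.q.ker)

namespace LvQuot

/-- The canonical map `Γ₂ → Γ` between two finite quotients of `G`. -/
noncomputable def transF : Γ₂ →* Γ :=
  (QuotientGroup.lift Q₂.q.ker Q.q h).comp
    (QuotientGroup.quotientKerEquivOfSurjective Q₂.q Q₂.q_surj).symm.toMonoidHom

omit [Finite Γ] [Finite Γ₂] in
lemma transF_q (g : G) : Q.transF Q₂ h (Q₂.q g) = Q.q g := by
  have h1 : (QuotientGroup.quotientKerEquivOfSurjective Q₂.q Q₂.q_surj).symm (Q₂.q g)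
      = (g : G ⧸ Q₂.q.ker) := by
    rw [MulEquiv.symm_apply_eq]; rfl
  simp only [transF, MonoidHom.comp_apply, MulEquiv.coe_toMonoidHom, h1]
  rfl

omit [Finite Γ] [Finite Γ₂] in
include h in
lemma exists_transφ (x' : X') : ∃ x₂ : X₂', Q₂.φ x₂ = Q.φ x' :=
  Q₂.range_eq (Q.φ x') (fun _ hu => Q.fixed x' (h hu))

/-- The canonical map `X' → X₂'` between the models of fixed points. -/
noncomputable def transφ : X' →+ X₂' where
  toFun x' := Classical.choose (Q.exists_transφ Q₂ h x')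
  map_zero' := Q₂.φ_inj (by
    rw [Classical.choose_spec (Q.exists_transφ Q₂ h 0), map_zero, map_zero])
  map_add' a b := Q₂.φ_inj (by
    rw [Classical.choose_spec (Q.exists_transφ Q₂ h (a + b)), map_add, map_add,
      Classical.choose_spec (Q.exists_transφ Q₂ h a),
      Classical.choose_spec (Q.exists_transφ Q₂ h b)])

omit [Finite Γ] [Finite Γ₂] in
lemma φ_transφ (x' : X') : Q₂.φ (Q.transφ Q₂ h x') = Q.φ x' :=
  Classical.choose_spec (Q.exists_transφ Q₂ h x')

/-- The canonical transition between two finite levels. -/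
noncomputable def trans : LvMor (LevelSys.trivial Γ) X' (LevelSys.trivial Γ₂) X₂' where
  f := Q.transF Q₂ h
  φ := Q.transφ Q₂ h
  equivariant := by
    intro γ₂ x'
    obtain ⟨g, rfl⟩ := Q₂.q_surj γ₂
    apply Q₂.φ_inj
    rw [φ_transφ, transF_q, Q.equivariant, Q₂.equivariant, φ_transφ]
  levels := by
    rintro U rfl
    exact ⟨⊥, rfl, bot_le⟩

lemma trans_f_q (g : G) : (Q.trans Q₂ h).f (Q₂.q g) = Q.q g := Q.transF_q Q₂ h g

lemma φ_trans_φ (x' : X') : Q₂.φ ((Q.trans Q₂ h).φ x') = Q.φ x' := Q.φ_transφ Q₂ h x'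

end LvQuot

end CanonTrans

section CanonQuot

variable {G : Type*} [Group G] (W : Subgroup G) (X : Type*) [AddCommGroup X] [DistribMulAction G X]

/-- The fixed points of a subgroup. -/
def lvFix : AddSubgroup X where
  carrier := {x | ∀ s ∈ W, s • x = x}
  zero_mem' := fun s _ => smul_zero s
  add_mem' := by
    intro x y hx hy s hs
    rw [smul_add, hx s hs, hy s hs]
  neg_mem' := by
    intro x hx s hs
    rw [smul_neg, hx s hs]

variable {W X}

lemma mem_lvFix {x : X} : x ∈ lvFix W X ↔ ∀ s ∈ W, s • x = x := Iff.rfl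

lemma smul_mem_lvFix [hW : W.Normal] (g : G) {x : X} (hx : x ∈ lvFix W X) :
    g • x ∈ lvFix W X := by
  intro s hs
  have h1 : s * g = g * (g⁻¹ * s * g) := by group
  have h2 : g⁻¹ * s * g ∈ W := by
    have := hW.conj_mem s hs g⁻¹
    simpa using this
  rw [← mul_smul, h1, mul_smul, hx _ h2]

variable (W X)

/-- The action of `G` on the fixed points of a normal subgroup, as a homomorphism. -/
def lvFixHom [W.Normal] : G →* AddMonoid.End (lvFix W X) where
  toFun g :=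
    { toFun := fun x => ⟨g • (x : X), smul_mem_lvFix g x.2⟩
      map_zero' := Subtype.ext (smul_zero g)
      map_add' := fun x y => Subtype.ext (smul_add g (x : X) y) }
  map_one' := by
    ext x
    exact one_smul G (x : X)
  map_mul' g h := by
    ext x
    exact mul_smul g h (x : X)

lemma le_ker_lvFixHom [W.Normal] : W ≤ (lvFixHom W X).ker := by
  intro s hs
  rw [MonoidHom.mem_ker]
  ext x
  exact x.2 s hs

/-- The action of `G ⧸ W` on the `W`-fixed points. -/
instance lvFixAction [W.Normal] : DistribMulAction (G ⧸ W) (lvFix W X) :=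
  DistribMulAction.compHom (lvFix W X) (QuotientGroup.lift W (lvFixHom W X) (le_ker_lvFixHom W X))

variable {W X}

@[simp] lemma lvFix_mk_smul [W.Normal] (g : G) (x : lvFix W X) :
    (((QuotientGroup.mk g : G ⧸ W) • x : lvFix W X) : X) = g • (x : X) := rfl

lemma LevelSys.finite_quotient (L : LevelSys G) {U : Subgroup G} (hU : U ∈ L.levels) :
    Finite (G ⧸ U) := by
  have := L.finiteIndex U hU
  exact Subgroup.finite_quotient_of_finiteIndex

/-- The canonical finite quotient attached to a normal level. -/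
def LvQuot.ofLevel (L : LevelSys G) (X : Type*) [AddCommGroup X] [DistribMulAction G X]
    (W : Subgroup G) [W.Normal] (hW : W ∈ L.levels) : LvQuot L X (G ⧸ W) (lvFix W X) where
  q := QuotientGroup.mk' W
  q_surj := QuotientGroup.mk'_surjective W
  level := ⟨W, hW, by rw [QuotientGroup.ker_mk']⟩
  φ := (lvFix W X).subtype
  φ_inj := Subtype.val_injective
  equivariant := fun _ _ => rfl
  range_eq := fun x hx => ⟨⟨x, fun s hs => hx s (by rwa [QuotientGroup.ker_mk'])⟩, rfl⟩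

@[simp] lemma LvQuot.ofLevel_ker (L : LevelSys G) (X : Type*) [AddCommGroup X]
    [DistribMulAction G X] (W : Subgroup G) [W.Normal] (hW : W ∈ L.levels) :
    (LvQuot.ofLevel L X W hW).q.ker = W := QuotientGroup.ker_mk' W

/-- Every class of `lvH1` is inflated from the quotient by a normal level. -/
theorem lvH1_exists_ofLevel {L : LevelSys G} {X : Type*} [AddCommGroup X] [DistribMulAction G X]
    (x : lvH1 L X) {U₀ : Subgroup G} (hU₀ : U₀ ∈ L.levels) :
    ∃ (W : Subgroup G) (hW : W ∈ L.levels) (_ : W.Normal) (_ : Finite (G ⧸ W)),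
      W ≤ U₀ ∧ x ∈ (LvQuot.ofLevel L X W hW).mor.H1.range := by
  obtain ⟨W, hW, hWU₀, hWn, c, rfl, hc⟩ := lvH1_exists_rep x hU₀
  have := L.finite_quotient hW
  refine ⟨W, hW, hWn, inferInstance, hWU₀, (LvQuot.ofLevel L X W hW).mem_range_H1 c ?_⟩
  rw [LvQuot.ofLevel_ker]
  exact hc

/-- Every class of `lvH2` of a smooth module is inflated from the quotient by a normal level. -/
theorem lvH2_exists_ofLevel {L : LevelSys G} {X : Type*} [AddCommGroup X] [DistribMulAction G X]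
    (hX : L.IsSmooth X) (x : lvH2 L X) {U₀ : Subgroup G} (hU₀ : U₀ ∈ L.levels) :
    ∃ (W : Subgroup G) (hW : W ∈ L.levels) (_ : W.Normal) (_ : Finite (G ⧸ W)),
      W ≤ U₀ ∧ x ∈ (LvQuot.ofLevel L X W hW).mor.H2.range := by
  obtain ⟨W, hW, hWU₀, hWn, c, rfl, hc⟩ := lvH2_exists_rep hX x hU₀
  have := L.finite_quotient hW
  refine ⟨W, hW, hWn, inferInstance, hWU₀, (LvQuot.ofLevel L X W hW).mem_range_H2 c ?_⟩
  rw [LvQuot.ofLevel_ker]
  exact hc

end CanonQuot

end Fermat.Agent.S55
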