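import Fermat.Agent.S55.Level.LES

/-!
# Locally trivial classes and the connecting map (block [F] of S55; abstract step (2) of the
lattice route)

For a family of morphisms `m i : LvMor L X (LH i) (X' i)` the groups `lvSha1 m`, `lvSha2 m` are the
classes which die under every `m i`.  Given a short exact sequence `0 → A → B → C → 0` over `G`,
local short exact sequences and morphisms `t i` between them, such that

* `H¹` of the local middle terms vanishes (Hilbert 90), and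
* a class of `H²(G, B)` which comes from `H²(G, A)` and dies locally is zero,

the connecting map induces `lvSha1(C) ⧸ image of H¹(G, B) ≃+ lvSha2(A)`.
-/

set_option autoImplicit false

namespace Fermat.Agent.S55

open groupCohomology

section Sha

variable {G : Type*} [Group G] {L : LevelSys G} {X : Type*} [AddCommGroup X] [DistribMulAction G X]
  {ι : Type*} {H : ι → Type*} [∀ i, Group (H i)] {LH : ∀ i, LevelSys (H i)}
  {X' : ι → Type*} [∀ i, AddCommGroup (X' i)] [∀ i, DistribMulAction (H i) (X' i)]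

/-- Classes of `lvH1` dying under every member of a family of morphisms. -/
def lvSha1 (m : ∀ i, LvMor L X (LH i) (X' i)) : AddSubgroup (lvH1 L X) := ⨅ i, (m i).H1.ker

/-- Classes of `lvH2` dying under every member of a family of morphisms. -/
def lvSha2 (m : ∀ i, LvMor L X (LH i) (X' i)) : AddSubgroup (lvH2 L X) := ⨅ i, (m i).H2.ker

lemma mem_lvSha1 {m : ∀ i, LvMor L X (LH i) (X' i)} {x : lvH1 L X} :
    x ∈ lvSha1 m ↔ ∀ i, (m i).H1 x = 0 := by
  simp only [lvSha1, AddSubgroup.mem_iInf, AddMonoidHom.mem_ker]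

lemma mem_lvSha2 {m : ∀ i, LvMor L X (LH i) (X' i)} {x : lvH2 L X} :
    x ∈ lvSha2 m ↔ ∀ i, (m i).H2 x = 0 := by
  simp only [lvSha2, AddSubgroup.mem_iInf, AddMonoidHom.mem_ker]

end Sha

namespace LvSESMor

variable {G : Type*} [Group G] {A B C : Type*} [AddCommGroup A] [DistribMulAction G A]
  [AddCommGroup B] [DistribMulAction G B] [AddCommGroup C] [DistribMulAction G C]
  {E : LvSES G A B C} {L : LevelSys G}
  {H : Type*} [Group H] {A' B' C' : Type*} [AddCommGroup A'] [DistribMulAction H A']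
  [AddCommGroup B'] [DistribMulAction H B'] [AddCommGroup C'] [DistribMulAction H C']
  {E' : LvSES H A' B' C'} {LH : LevelSys H} (t : LvSESMor E L E' LH)

lemma pull2_mπ (b : G × G → B) :
    (E'.mπ LH).pull2 (t.mB.pull2 b) = t.mC.pull2 ((E.mπ L).pull2 b) := by
  funext ⟨h, h'⟩
  show E'.π (t.mB.φ (b (t.mB.f h, t.mB.f h'))) = t.mC.φ (E.π (b (t.mC.f h, t.mC.f h')))
  rw [t.comm_π, t.fBC]

/-- Naturality of `H¹(A) → H¹(B)`. -/
lemma H1_mi_comm (x : lvH1 L A) :
    t.mB.H1 ((E.mi L).H1 x) = (E'.mi LH).H1 (t.mA.H1 x) := by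
  obtain ⟨a, rfl⟩ := lvH1mk_surjective x
  simp only [LvMor.H1_mk]
  congr 1
  apply Subtype.ext
  simp only [LvMor.Z1_coe]
  exact (t.pull1_mi _).symm

/-- Naturality of `H¹(B) → H¹(C)`. -/
lemma H1_mπ_comm (x : lvH1 L B) :
    t.mC.H1 ((E.mπ L).H1 x) = (E'.mπ LH).H1 (t.mB.H1 x) := by
  obtain ⟨a, rfl⟩ := lvH1mk_surjective x
  simp only [LvMor.H1_mk]
  congr 1
  apply Subtype.ext
  simp only [LvMor.Z1_coe]
  exact (t.pull1_mπ _).symm

/-- Naturality of `H²(A) → H²(B)`. -/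
lemma H2_mi_comm (x : lvH2 L A) :
    t.mB.H2 ((E.mi L).H2 x) = (E'.mi LH).H2 (t.mA.H2 x) := by
  obtain ⟨a, rfl⟩ := lvH2mk_surjective x
  simp only [LvMor.H2_mk]
  congr 1
  apply Subtype.ext
  simp only [LvMor.Z2_coe]
  exact (t.pull2_mi _).symm

/-- Naturality of `H²(B) → H²(C)`. -/
lemma H2_mπ_comm (x : lvH2 L B) :
    t.mC.H2 ((E.mπ L).H2 x) = (E'.mπ LH).H2 (t.mB.H2 x) := by
  obtain ⟨a, rfl⟩ := lvH2mk_surjective x
  simp only [LvMor.H2_mk]
  congr 1
  apply Subtype.ext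
  simp only [LvMor.Z2_coe]
  exact (t.pull2_mπ _).symm

end LvSESMor

section Step2

variable {G : Type*} [Group G] {A B C : Type*} [AddCommGroup A] [DistribMulAction G A]
  [AddCommGroup B] [DistribMulAction G B] [AddCommGroup C] [DistribMulAction G C]
  (E : LvSES G A B C) (L : LevelSys G)
  {ι : Type*} {H : ι → Type*} [∀ i, Group (H i)] {LH : ∀ i, LevelSys (H i)}
  {A' B' C' : ι → Type*}
  [∀ i, AddCommGroup (A' i)] [∀ i, DistribMulAction (H i) (A' i)]
  [∀ i, AddCommGroup (B' i)] [∀ i, DistribMulAction (H i) (B' i)]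
  [∀ i, AddCommGroup (C' i)] [∀ i, DistribMulAction (H i) (C' i)]
  {E' : ∀ i, LvSES (H i) (A' i) (B' i) (C' i)}
  (t : ∀ i, LvSESMor E L (E' i) (LH i))
  (hB : L.IsSmooth B) (hB' : ∀ i, (LH i).IsSmooth (B' i))

include hB' in
/-- The connecting map sends locally trivial classes to locally trivial classes. -/
theorem lvSha_δ1_mem {x : lvH1 L C} (hx : x ∈ lvSha1 (fun i => (t i).mC)) :
    E.δ1 L hB x ∈ lvSha2 (fun i => (t i).mA) := by
  rw [mem_lvSha2]
  intro i
  rw [(t i).δ1_comm hB (hB' i), mem_lvSha1.mp hx i, map_zero]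

/-- If the local middle `H¹` vanish, the image of `H¹(G, B)` is locally trivial. -/
theorem lvSha_mπ_mem (h1 : ∀ (i : ι) (z : lvH1 (LH i) (B' i)), z = 0) (z : lvH1 L B) :
    (E.mπ L).H1 z ∈ lvSha1 (fun i => (t i).mC) := by
  rw [mem_lvSha1]
  intro i
  rw [(t i).H1_mπ_comm, h1 i ((t i).mB.H1 z), map_zero]

include hB' in
/-- Every locally trivial class of `H²(G, A)` is the image under the connecting map of a locally
trivial class of `H¹(G, C)`. -/
theorem lvSha_exists_δ1 (h1 : ∀ (i : ι) (z : lvH1 (LH i) (B' i)), z = 0)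
    (h2 : ∀ z : lvH2 L B, (∃ x ∈ lvSha2 (fun i => (t i).mA), (E.mi L).H2 x = z) →
      (∀ i, (t i).mB.H2 z = 0) → z = 0)
    {y : lvH2 L A} (hy : y ∈ lvSha2 (fun i => (t i).mA)) :
    ∃ x ∈ lvSha1 (fun i => (t i).mC), E.δ1 L hB x = y := by
  have hz : (E.mi L).H2 y = 0 := by
    refine h2 _ ⟨y, hy, rfl⟩ (fun i => ?_)
    rw [(t i).H2_mi_comm, mem_lvSha2.mp hy i, map_zero]
  obtain ⟨x, hx⟩ := (E.exact_H2A L hB y).1 hz
  refine ⟨x, ?_, hx⟩
  rw [mem_lvSha1]
  intro i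
  have h3 : (E' i).δ1 (LH i) (hB' i) ((t i).mC.H1 x) = 0 := by
    rw [← (t i).δ1_comm hB (hB' i), hx, mem_lvSha2.mp hy i]
  obtain ⟨w, hw⟩ := ((E' i).exact_H1C (LH i) (hB' i) _).1 h3
  rw [← hw, h1 i w, map_zero]

/-- The connecting map on locally trivial classes. -/
noncomputable def lvShaδ : lvSha1 (fun i => (t i).mC) →+ lvSha2 (fun i => (t i).mA) :=
  ((E.δ1 L hB).comp (lvSha1 (fun i => (t i).mC)).subtype).codRestrict _
    (fun x => lvSha_δ1_mem E L t hB hB' x.2)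

@[simp] lemma lvShaδ_coe (x : lvSha1 (fun i => (t i).mC)) :
    ((lvShaδ E L t hB hB' x : lvSha2 (fun i => (t i).mA)) : lvH2 L A) = E.δ1 L hB x := rfl

theorem lvShaδ_surjective (h1 : ∀ (i : ι) (z : lvH1 (LH i) (B' i)), z = 0)
    (h2 : ∀ z : lvH2 L B, (∃ x ∈ lvSha2 (fun i => (t i).mA), (E.mi L).H2 x = z) →
      (∀ i, (t i).mB.H2 z = 0) → z = 0) :
    Function.Surjective (lvShaδ E L t hB hB') := by
  intro y
  obtain ⟨x, hx, hxy⟩ := lvSha_exists_δ1 E L t hB hB' h1 h2 y.2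
  exact ⟨⟨x, hx⟩, Subtype.ext hxy⟩

theorem lvShaδ_ker :
    (lvShaδ E L t hB hB').ker =
      ((E.mπ L).H1.range).addSubgroupOf (lvSha1 (fun i => (t i).mC)) := by
  ext x
  rw [AddMonoidHom.mem_ker, AddSubgroup.mem_addSubgroupOf, AddMonoidHom.mem_range,
    ← E.exact_H1C L hB]
  constructor
  · intro h
    have := congrArg Subtype.val h
    simpa using this
  · intro h
    apply Subtype.ext
    simpa using h

/-- **Abstract step (2).**  `lvSha1(C)` modulo the image of `H¹(G, B)` is `lvSha2(A)`. -/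
noncomputable def lvShaEquiv (h1 : ∀ (i : ι) (z : lvH1 (LH i) (B' i)), z = 0)
    (h2 : ∀ z : lvH2 L B, (∃ x ∈ lvSha2 (fun i => (t i).mA), (E.mi L).H2 x = z) →
      (∀ i, (t i).mB.H2 z = 0) → z = 0) :
    (lvSha1 (fun i => (t i).mC) ⧸
      ((E.mπ L).H1.range).addSubgroupOf (lvSha1 (fun i => (t i).mC))) ≃+
      lvSha2 (fun i => (t i).mA) :=
  (QuotientAddGroup.quotientAddEquivOfEq (lvShaδ_ker E L t hB hB').symm).trans
    (QuotientAddGroup.quotientKerEquivOfSurjective _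
      (lvShaδ_surjective E L t hB hB' h1 h2))

lemma lvShaEquiv_mk (h1 : ∀ (i : ι) (z : lvH1 (LH i) (B' i)), z = 0)
    (h2 : ∀ z : lvH2 L B, (∃ x ∈ lvSha2 (fun i => (t i).mA), (E.mi L).H2 x = z) →
      (∀ i, (t i).mB.H2 z = 0) → z = 0) (x : lvSha1 (fun i => (t i).mC)) :
    ((lvShaEquiv E L t hB hB' h1 h2 (QuotientAddGroup.mk x) :
      lvSha2 (fun i => (t i).mA)) : lvH2 L A) = E.δ1 L hB x := rfl

end Step2

section Torsion

variable {G : Type*} [Group G] {L : LevelSys G} {A : Type*} [AddCommGroup A] [DistribMulAction G A]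

/-- If `n` kills the module, it kills `H¹`. -/
lemma lvH1_nsmul_eq_zero {n : ℕ} (hA : ∀ a : A, n • a = 0) (x : lvH1 L A) : n • x = 0 := by
  obtain ⟨c, rfl⟩ := lvH1mk_surjective x
  rw [← map_nsmul]
  have : n • c = 0 := by
    apply Subtype.ext
    funext g
    show n • (c : G → A) g = 0
    exact hA _
  rw [this, map_zero]

/-- If `n` kills the module, it kills `H²`. -/
lemma lvH2_nsmul_eq_zero {n : ℕ} (hA : ∀ a : A, n • a = 0) (x : lvH2 L A) : n • x = 0 := by
  obtain ⟨c, rfl⟩ := lvH2mk_surjective x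
  rw [← map_nsmul]
  have : n • c = 0 := by
    apply Subtype.ext
    funext g
    show n • (c : G × G → A) g = 0
    exact hA _
  rw [this, map_zero]

end Torsion

section Step2'

variable {G : Type*} [Group G] {A B C : Type*} [AddCommGroup A] [DistribMulAction G A]
  [AddCommGroup B] [DistribMulAction G B] [AddCommGroup C] [DistribMulAction G C]
  (E : LvSES G A B C) (L : LevelSys G)
  {ι : Type*} {H : ι → Type*} [∀ i, Group (H i)] {LH : ∀ i, LevelSys (H i)}
  {A' B' C' : ι → Type*}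
  [∀ i, AddCommGroup (A' i)] [∀ i, DistribMulAction (H i) (A' i)]
  [∀ i, AddCommGroup (B' i)] [∀ i, DistribMulAction (H i) (B' i)]
  [∀ i, AddCommGroup (C' i)] [∀ i, DistribMulAction (H i) (C' i)]
  {E' : ∀ i, LvSES (H i) (A' i) (B' i) (C' i)}
  (t : ∀ i, LvSESMor E L (E' i) (LH i))
  (hB : L.IsSmooth B) (hB' : ∀ i, (LH i).IsSmooth (B' i))

/-- The hypothesis `(h2)` of `lvShaEquiv` follows from injectivity of localisation on `p`-torsion
classes of `H²(G, B)` when `p` kills `A`. -/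
lemma lvSha_h2_of_torsion {p : ℕ} (hA : ∀ a : A, p • a = 0)
    (V2 : ∀ z : lvH2 L B, p • z = 0 → (∀ i, (t i).mB.H2 z = 0) → z = 0) :
    ∀ z : lvH2 L B, (∃ x ∈ lvSha2 (fun i => (t i).mA), (E.mi L).H2 x = z) →
      (∀ i, (t i).mB.H2 z = 0) → z = 0 := by
  rintro z ⟨x, -, rfl⟩ hloc
  refine V2 _ ?_ hloc
  rw [← map_nsmul, lvH2_nsmul_eq_zero hA x, map_zero]

/-- **Abstract step (2)**, in the shape of ruling #802 (D-S2A). -/
noncomputable def lvShaEquiv' {p : ℕ} (hA : ∀ a : A, p • a = 0)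
    (V1 : ∀ (i : ι) (z : lvH1 (LH i) (B' i)), z = 0)
    (V2 : ∀ z : lvH2 L B, p • z = 0 → (∀ i, (t i).mB.H2 z = 0) → z = 0) :
    lvSha2 (fun i => (t i).mA) ≃+
      (lvSha1 (fun i => (t i).mC) ⧸
        ((E.mπ L).H1.range).addSubgroupOf (lvSha1 (fun i => (t i).mC))) :=
  (lvShaEquiv E L t hB hB' V1 (lvSha_h2_of_torsion E L t hA V2)).symm

lemma lvShaEquiv'_symm_mk {p : ℕ} (hA : ∀ a : A, p • a = 0)
    (V1 : ∀ (i : ι) (z : lvH1 (LH i) (B' i)), z = 0)
    (V2 : ∀ z : lvH2 L B, p • z = 0 → (∀ i, (t i).mB.H2 z = 0) → z = 0)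
    (x : lvSha1 (fun i => (t i).mC)) :
    (((lvShaEquiv' E L t hB hB' hA V1 V2).symm (QuotientAddGroup.mk x) :
      lvSha2 (fun i => (t i).mA)) : lvH2 L A) = E.δ1 L hB x := rfl

end Step2'

end Fermat.Agent.S55
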