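import Mathlib

/-!
# Level systems and level-constant cochains (block [F] of S55)

A `LevelSys G` is a directed family of finite-index subgroups of `G` which contains, below every
member, a normal member.  Level-constant 1- and 2-cochains are the plain functions that are
invariant under right translation by some level; these are verbatim the conditions of the frozen
definitions `IsLevelConstant₁/₂` and `IsLevelConstantS₁/₂`.
-/

set_option autoImplicit false

namespace Fermat.Agent.S55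

open groupCohomology

/-- A level system on a group `G`. -/
structure LevelSys (G : Type*) [Group G] where
  levels : Set (Subgroup G)
  nonempty : levels.Nonempty
  directed : ∀ U ∈ levels, ∀ V ∈ levels, ∃ W ∈ levels, W ≤ U ⊓ V
  exists_normal : ∀ U ∈ levels, ∃ W ∈ levels, W ≤ U ∧ W.Normal
  finiteIndex : ∀ U ∈ levels, U.FiniteIndex

namespace LevelSys

variable {G : Type*} [Group G] (L : LevelSys G)

/-- The trivial level system `{⊥}` on a finite group. -/
def trivial (Γ : Type*) [Group Γ] [Finite Γ] : LevelSys Γ where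
  levels := {⊥}
  nonempty := ⟨⊥, rfl⟩
  directed := by
    rintro U rfl V rfl
    exact ⟨⊥, rfl, bot_le⟩
  exists_normal := by
    rintro U rfl
    exact ⟨⊥, rfl, le_rfl, inferInstance⟩
  finiteIndex := by
    rintro U rfl
    infer_instance

/-- Pull back a level system along a group homomorphism. -/
def comap {H : Type*} [Group H] (f : H →* G) : LevelSys H where
  levels := {V | ∃ U ∈ L.levels, V = U.comap f}
  nonempty := by
    obtain ⟨U, hU⟩ := L.nonempty
    exact ⟨U.comap f, U, hU, rfl⟩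
  directed := by
    rintro _ ⟨U, hU, rfl⟩ _ ⟨V, hV, rfl⟩
    obtain ⟨W, hW, hWUV⟩ := L.directed U hU V hV
    refine ⟨W.comap f, ⟨W, hW, rfl⟩, ?_⟩
    rw [← Subgroup.comap_inf]
    exact Subgroup.comap_mono hWUV
  exists_normal := by
    rintro _ ⟨U, hU, rfl⟩
    obtain ⟨W, hW, hWU, hWn⟩ := L.exists_normal U hU
    exact ⟨W.comap f, ⟨W, hW, rfl⟩, Subgroup.comap_mono hWU, hWn.comap f⟩
  finiteIndex := by
    rintro _ ⟨U, hU, rfl⟩
    have := L.finiteIndex U hU
    refine ⟨?_⟩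
    rw [Subgroup.index_comap]
    exact (Subgroup.instFiniteIndex_subgroupOf U f.range).index_ne_zero

lemma exists_normal_le_inf {U V : Subgroup G} (hU : U ∈ L.levels) (hV : V ∈ L.levels) :
    ∃ W ∈ L.levels, W ≤ U ⊓ V ∧ W.Normal := by
  obtain ⟨W, hW, hWUV⟩ := L.directed U hU V hV
  obtain ⟨W', hW', hW'W, hn⟩ := L.exists_normal W hW
  exact ⟨W', hW', hW'W.trans hWUV, hn⟩

/-- A module is smooth if every element is fixed by some level. -/
def IsSmooth (X : Type*) [AddCommGroup X] [DistribMulAction G X] : Prop :=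
  ∀ x : X, ∃ U ∈ L.levels, ∀ u ∈ U, u • x = x

/-- Level-constant 1-cochains (the frozen `IsLevelConstant₁` shape). -/
def IsLC1 {X : Type*} (f : G → X) : Prop :=
  ∃ U ∈ L.levels, ∀ g : G, ∀ s ∈ U, f (g * s) = f g

/-- Level-constant 2-cochains (the frozen `IsLevelConstant₂` shape). -/
def IsLC2 {X : Type*} (f : G × G → X) : Prop :=
  ∃ U ∈ L.levels, ∀ g g' : G, ∀ s ∈ U, ∀ s' ∈ U, f (g * s, g' * s') = f (g, g')

variable {L}

lemma IsLC1.exists_normal {X : Type*} {f : G → X} (hf : L.IsLC1 f) :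
    ∃ U ∈ L.levels, U.Normal ∧ ∀ g : G, ∀ s ∈ U, f (g * s) = f g := by
  obtain ⟨U, hU, h⟩ := hf
  obtain ⟨W, hW, hWU, hn⟩ := L.exists_normal U hU
  exact ⟨W, hW, hn, fun g s hs => h g s (hWU hs)⟩

lemma IsLC2.exists_normal {X : Type*} {f : G × G → X} (hf : L.IsLC2 f) :
    ∃ U ∈ L.levels, U.Normal ∧
      ∀ g g' : G, ∀ s ∈ U, ∀ s' ∈ U, f (g * s, g' * s') = f (g, g') := by
  obtain ⟨U, hU, h⟩ := hf
  obtain ⟨W, hW, hWU, hn⟩ := L.exists_normal U hU
  exact ⟨W, hW, hn, fun g g' s hs s' hs' => h g g' s (hWU hs) s' (hWU hs')⟩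

lemma isLC1_const {X : Type*} (x : X) : L.IsLC1 (fun _ : G => x) := by
  obtain ⟨U, hU⟩ := L.nonempty
  exact ⟨U, hU, fun _ _ _ => rfl⟩

lemma isLC2_const {X : Type*} (x : X) : L.IsLC2 (fun _ : G × G => x) := by
  obtain ⟨U, hU⟩ := L.nonempty
  exact ⟨U, hU, fun _ _ _ _ _ _ => rfl⟩

lemma IsLC1.comp {X Y : Type*} {f : G → X} (hf : L.IsLC1 f) (φ : X → Y) :
    L.IsLC1 (φ ∘ f) := by
  obtain ⟨U, hU, h⟩ := hf
  exact ⟨U, hU, fun g s hs => by simp only [Function.comp_apply, h g s hs]⟩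

lemma IsLC2.comp {X Y : Type*} {f : G × G → X} (hf : L.IsLC2 f) (φ : X → Y) :
    L.IsLC2 (φ ∘ f) := by
  obtain ⟨U, hU, h⟩ := hf
  exact ⟨U, hU, fun g g' s hs s' hs' => by simp only [Function.comp_apply, h g g' s hs s' hs']⟩

lemma IsLC1.map₂ {X Y Z : Type*} {f : G → X} {f' : G → Y} (hf : L.IsLC1 f) (hf' : L.IsLC1 f')
    (φ : X → Y → Z) : L.IsLC1 (fun g => φ (f g) (f' g)) := by
  obtain ⟨U, hU, h⟩ := hf
  obtain ⟨V, hV, h'⟩ := hf'
  obtain ⟨W, hW, hWUV⟩ := L.directed U hU V hV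
  exact ⟨W, hW, fun g s hs => by
    show φ (f (g * s)) (f' (g * s)) = φ (f g) (f' g)
    rw [h g s (hWUV hs).1, h' g s (hWUV hs).2]⟩

lemma IsLC2.map₂ {X Y Z : Type*} {f : G × G → X} {f' : G × G → Y} (hf : L.IsLC2 f)
    (hf' : L.IsLC2 f') (φ : X → Y → Z) : L.IsLC2 (fun p => φ (f p) (f' p)) := by
  obtain ⟨U, hU, h⟩ := hf
  obtain ⟨V, hV, h'⟩ := hf'
  obtain ⟨W, hW, hWUV⟩ := L.directed U hU V hV
  exact ⟨W, hW, fun g g' s hs s' hs' => by
    show φ (f (g * s, g' * s')) (f' (g * s, g' * s')) = φ (f (g, g')) (f' (g, g'))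
    rw [h g g' s (hWUV hs).1 s' (hWUV hs').1, h' g g' s (hWUV hs).2 s' (hWUV hs').2]⟩

lemma IsLC1.add {X : Type*} [Add X] {f f' : G → X} (hf : L.IsLC1 f) (hf' : L.IsLC1 f') :
    L.IsLC1 (f + f') := hf.map₂ hf' (· + ·)

lemma IsLC2.add {X : Type*} [Add X] {f f' : G × G → X} (hf : L.IsLC2 f) (hf' : L.IsLC2 f') :
    L.IsLC2 (f + f') := hf.map₂ hf' (· + ·)

lemma IsLC1.neg {X : Type*} [Neg X] {f : G → X} (hf : L.IsLC1 f) : L.IsLC1 (-f) :=
  hf.comp (fun x => -x)

lemma IsLC2.neg {X : Type*} [Neg X] {f : G × G → X} (hf : L.IsLC2 f) : L.IsLC2 (-f) :=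
  hf.comp (fun x => -x)

lemma IsLC1.sub {X : Type*} [Sub X] {f f' : G → X} (hf : L.IsLC1 f) (hf' : L.IsLC1 f') :
    L.IsLC1 (f - f') := hf.map₂ hf' (· - ·)

lemma IsLC2.sub {X : Type*} [Sub X] {f f' : G × G → X} (hf : L.IsLC2 f) (hf' : L.IsLC2 f') :
    L.IsLC2 (f - f') := hf.map₂ hf' (· - ·)

/-- A level-constant 1-cochain has finitely many values. -/
lemma IsLC1.finite_range {X : Type*} {f : G → X} (hf : L.IsLC1 f) : (Set.range f).Finite := by
  obtain ⟨U, hU, h⟩ := hf
  have := L.finiteIndex U hU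
  have : Finite (G ⧸ U) := Subgroup.finite_quotient_of_finiteIndex
  let f' : G ⧸ U → X := Quotient.lift f (by
    intro a b hab
    have hab' : a⁻¹ * b ∈ U := QuotientGroup.leftRel_apply.mp hab
    have := h a (a⁻¹ * b) hab'
    rw [mul_inv_cancel_left] at this
    exact this.symm)
  have hrange : Set.range f ⊆ Set.range f' := by
    rintro _ ⟨g, rfl⟩
    exact ⟨QuotientGroup.mk g, rfl⟩
  exact (Set.finite_range f').subset hrange

/-- A level-constant 2-cochain has finitely many values. -/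
lemma IsLC2.finite_range {X : Type*} {f : G × G → X} (hf : L.IsLC2 f) :
    (Set.range f).Finite := by
  obtain ⟨U, hU, h⟩ := hf
  have := L.finiteIndex U hU
  have : Finite (G ⧸ U) := Subgroup.finite_quotient_of_finiteIndex
  let f₁ : G → G ⧸ U → X := fun g => Quotient.lift (fun g' => f (g, g')) (by
    intro a b hab
    have hab' : a⁻¹ * b ∈ U := QuotientGroup.leftRel_apply.mp hab
    have := h g a 1 U.one_mem (a⁻¹ * b) hab'
    rw [mul_inv_cancel_left, mul_one] at this
    exact this.symm)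
  let f' : G ⧸ U → G ⧸ U → X := Quotient.lift f₁ (by
    intro a b hab
    have hab' : a⁻¹ * b ∈ U := QuotientGroup.leftRel_apply.mp hab
    funext y
    induction y using Quotient.inductionOn with
    | h g' =>
      have := h a g' (a⁻¹ * b) hab' 1 U.one_mem
      rw [mul_inv_cancel_left, mul_one] at this
      exact this.symm)
  have hrange : Set.range f ⊆ Set.range (fun p : (G ⧸ U) × (G ⧸ U) => f' p.1 p.2) := by
    rintro _ ⟨⟨g, g'⟩, rfl⟩
    exact ⟨(QuotientGroup.mk g, QuotientGroup.mk g'), rfl⟩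
  exact (Set.finite_range _).subset hrange

variable (L) in
/-- In a smooth module, finitely many elements are fixed by a common normal level, which can be
chosen inside a given level. -/
lemma IsSmooth.exists_level {X : Type*} [AddCommGroup X] [DistribMulAction G X]
    (hX : L.IsSmooth X) {s : Set X} (hs : s.Finite) {U₀ : Subgroup G} (hU₀ : U₀ ∈ L.levels) :
    ∃ U ∈ L.levels, U ≤ U₀ ∧ U.Normal ∧ ∀ u ∈ U, ∀ x ∈ s, u • x = x := by
  induction s, hs using Set.Finite.induction_on with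
  | empty =>
    obtain ⟨W, hW, hWU, hn⟩ := L.exists_normal U₀ hU₀
    exact ⟨W, hW, hWU, hn, fun _ _ x hx => (Set.notMem_empty x hx).elim⟩
  | @insert a s _ _ ih =>
    obtain ⟨U, hU, hUU₀, _, hfix⟩ := ih
    obtain ⟨V, hV, hVa⟩ := hX a
    obtain ⟨W, hW, hWUV, hn⟩ := L.exists_normal_le_inf hU hV
    refine ⟨W, hW, (hWUV.trans inf_le_left).trans hUU₀, hn, fun u hu x hx => ?_⟩
    rcases Set.mem_insert_iff.mp hx with rfl | hx
    · exact hVa u (hWUV hu).2
    · exact hfix u (hWUV hu).1 x hx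

end LevelSys

end Fermat.Agent.S55
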