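import Fermat.Agent.S55.Level.Basic

/-!
# Level cohomology in degrees 0, 1, 2 (block [F] of S55)

Plain-function cochains on an additive group `X` with a `DistribMulAction G X`; `lvH1 L X` and
`lvH2 L X` are the cohomology groups of level-constant cochains.  `LvMor` packages a change of
group + coefficients and induces maps on `lvH1`, `lvH2`.
-/

set_option autoImplicit false

namespace Fermat.Agent.S55

open groupCohomology

section Differentials

variable (G : Type*) [Group G] (X : Type*) [AddCommGroup X] [DistribMulAction G X]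

/-- `d⁰ x = (g ↦ g • x - x)`. -/
def lvD0 : X →+ (G → X) where
  toFun x g := g • x - x
  map_zero' := by funext g; simp
  map_add' x y := by funext g; simp only [smul_add, Pi.add_apply]; abel

/-- `d¹ f = ((g,h) ↦ g • f h - f (g*h) + f g)`. -/
def lvD1 : (G → X) →+ (G × G → X) where
  toFun f p := p.1 • f p.2 - f (p.1 * p.2) + f p.1
  map_zero' := by funext p; simp
  map_add' f f' := by funext p; simp only [Pi.add_apply, smul_add]; abel

variable {G X}

@[simp] lemma lvD0_apply (x : X) (g : G) : lvD0 G X x g = g • x - x := rfl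

@[simp] lemma lvD1_apply (f : G → X) (g h : G) :
    lvD1 G X f (g, h) = g • f h - f (g * h) + f g := rfl

lemma isCocycle₁_lvD0 (x : X) : IsCocycle₁ (lvD0 G X x) := by
  intro g h
  simp only [lvD0_apply, mul_smul, smul_sub]
  abel

lemma lvD1_lvD0 (x : X) : lvD1 G X (lvD0 G X x) = 0 := by
  funext ⟨g, h⟩
  simp only [lvD1_apply, lvD0_apply, mul_smul, smul_sub, Pi.zero_apply]
  abel

lemma isCocycle₂_lvD1 (f : G → X) : IsCocycle₂ (lvD1 G X f) := by
  intro g h j
  simp only [lvD1_apply, mul_smul, smul_sub, smul_add, mul_assoc]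
  abel

lemma isCocycle₁_iff_lvD1_eq_zero (f : G → X) : IsCocycle₁ f ↔ lvD1 G X f = 0 := by
  constructor
  · intro hf
    funext ⟨g, h⟩
    simp only [lvD1_apply, Pi.zero_apply, hf g h]
    abel
  · intro hf g h
    have := congrFun hf (g, h)
    simp only [lvD1_apply, Pi.zero_apply] at this
    have h2 : f (g * h) = g • f h + f g - (g • f h - f (g * h) + f g) := by abel
    rw [h2, this, sub_zero]

end Differentials

section Groups

variable {G : Type*} [Group G] (L : LevelSys G) (X : Type*) [AddCommGroup X]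
  [DistribMulAction G X]

/-- Level-constant 1-cochains. -/
def lvC1 : AddSubgroup (G → X) where
  carrier := {f | L.IsLC1 f}
  zero_mem' := LevelSys.isLC1_const (0 : X)
  add_mem' hf hf' := hf.add hf'
  neg_mem' hf := hf.neg

/-- Level-constant 2-cochains. -/
def lvC2 : AddSubgroup (G × G → X) where
  carrier := {f | L.IsLC2 f}
  zero_mem' := LevelSys.isLC2_const (0 : X)
  add_mem' hf hf' := hf.add hf'
  neg_mem' hf := hf.neg

/-- Level-constant 1-cocycles. -/
def lvZ1 : AddSubgroup (G → X) where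
  carrier := {f | IsCocycle₁ f ∧ L.IsLC1 f}
  zero_mem' := ⟨fun g h => by simp, LevelSys.isLC1_const (0 : X)⟩
  add_mem' := by
    rintro f f' ⟨hf, hfl⟩ ⟨hf', hfl'⟩
    refine ⟨fun g h => ?_, hfl.add hfl'⟩
    simp only [Pi.add_apply, hf g h, hf' g h, smul_add]
    abel
  neg_mem' := by
    rintro f ⟨hf, hfl⟩
    refine ⟨fun g h => ?_, hfl.neg⟩
    simp only [Pi.neg_apply, hf g h, smul_neg]
    abel

/-- 1-coboundaries. -/
def lvB1 : AddSubgroup (G → X) := (lvD0 G X).range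

/-- Level-constant 2-cocycles. -/
def lvZ2 : AddSubgroup (G × G → X) where
  carrier := {f | IsCocycle₂ f ∧ L.IsLC2 f}
  zero_mem' := ⟨fun g h j => by simp, LevelSys.isLC2_const (0 : X)⟩
  add_mem' := by
    rintro f f' ⟨hf, hfl⟩ ⟨hf', hfl'⟩
    refine ⟨fun g h j => ?_, hfl.add hfl'⟩
    have h1 := hf g h j
    have h2 := hf' g h j
    simp only [Pi.add_apply, smul_add]
    calc f (g * h, j) + f' (g * h, j) + (f (g, h) + f' (g, h))
        = (f (g * h, j) + f (g, h)) + (f' (g * h, j) + f' (g, h)) := by abel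
      _ = (g • f (h, j) + f (g, h * j)) + (g • f' (h, j) + f' (g, h * j)) := by rw [h1, h2]
      _ = _ := by abel
  neg_mem' := by
    rintro f ⟨hf, hfl⟩
    refine ⟨fun g h j => ?_, hfl.neg⟩
    have h1 := hf g h j
    simp only [Pi.neg_apply, smul_neg]
    calc -f (g * h, j) + -f (g, h) = -(f (g * h, j) + f (g, h)) := by abel
      _ = -(g • f (h, j) + f (g, h * j)) := by rw [h1]
      _ = _ := by abel

/-- Level 2-coboundaries: `d¹` of level-constant 1-cochains. -/
def lvB2 : AddSubgroup (G × G → X) := (lvC1 L X).map (lvD1 G X)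

variable {L X}

omit [DistribMulAction G X] in
lemma mem_lvC1 {f : G → X} : f ∈ lvC1 L X ↔ L.IsLC1 f := Iff.rfl
omit [DistribMulAction G X] in
lemma mem_lvC2 {f : G × G → X} : f ∈ lvC2 L X ↔ L.IsLC2 f := Iff.rfl
lemma mem_lvZ1 {f : G → X} : f ∈ lvZ1 L X ↔ IsCocycle₁ f ∧ L.IsLC1 f := Iff.rfl
lemma mem_lvZ2 {f : G × G → X} : f ∈ lvZ2 L X ↔ IsCocycle₂ f ∧ L.IsLC2 f := Iff.rfl
lemma mem_lvB1 {f : G → X} : f ∈ lvB1 (G := G) X ↔ ∃ x : X, lvD0 G X x = f := Iff.rfl
lemma mem_lvB2 {f : G × G → X} :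
    f ∈ lvB2 L X ↔ ∃ c : G → X, L.IsLC1 c ∧ lvD1 G X c = f := Iff.rfl

lemma lvZ1_le_lvC1 : lvZ1 L X ≤ lvC1 L X := fun _ h => h.2
lemma lvZ2_le_lvC2 : lvZ2 L X ≤ lvC2 L X := fun _ h => h.2

/-- In a smooth module, coboundaries of elements are level-constant. -/
lemma isLC1_lvD0 (hX : L.IsSmooth X) (x : X) : L.IsLC1 (lvD0 G X x) := by
  obtain ⟨U, hU, h⟩ := hX x
  refine ⟨U, hU, fun g s hs => ?_⟩
  simp only [lvD0_apply, mul_smul, h s hs]

/-- In a smooth module, `d¹` of a level-constant cochain is level-constant. -/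
lemma isLC2_lvD1 (hX : L.IsSmooth X) {f : G → X} (hf : L.IsLC1 f) : L.IsLC2 (lvD1 G X f) := by
  obtain ⟨U, hU, hUn, h⟩ := hf.exists_normal
  obtain ⟨W, hW, hWU, hWn, hfix⟩ := hX.exists_level L hf.finite_range hU
  refine ⟨W, hW, fun g g' s hs s' hs' => ?_⟩
  simp only [lvD1_apply]
  have h1 : f (g' * s') = f g' := h g' s' (hWU hs')
  have h2 : f (g * s) = f g := h g s (hWU hs)
  have h3 : s • f g' = f g' := hfix s hs (f g') ⟨g', rfl⟩
  have h4 : f (g * s * (g' * s')) = f (g * g') := by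
    have : g * s * (g' * s') = g * g' * ((g'⁻¹ * s * g') * s') := by group
    rw [this]
    refine h (g * g') _ (U.mul_mem ?_ (hWU hs'))
    have := hUn.conj_mem s (hWU hs) g'⁻¹
    simpa using this
  rw [h1, h2, h4, mul_smul, h3]

lemma lvB1_le_lvZ1 (hX : L.IsSmooth X) : lvB1 (G := G) X ≤ lvZ1 L X := by
  rintro _ ⟨x, rfl⟩
  exact ⟨isCocycle₁_lvD0 x, isLC1_lvD0 hX x⟩

lemma lvB2_le_lvZ2 (hX : L.IsSmooth X) : lvB2 L X ≤ lvZ2 L X := by
  rintro _ ⟨c, hc, rfl⟩
  exact ⟨isCocycle₂_lvD1 c, isLC2_lvD1 hX hc⟩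

variable (L X)

/-- Invariants. -/
def lvH0 : AddSubgroup X where
  carrier := {x | ∀ g : G, g • x = x}
  zero_mem' := fun g => smul_zero g
  add_mem' := by
    intro x y hx hy g
    rw [smul_add, hx g, hy g]
  neg_mem' := by
    intro x hx g
    rw [smul_neg, hx g]

/-- First level cohomology. -/
abbrev lvH1 : Type _ := lvZ1 L X ⧸ (lvB1 (G := G) X).addSubgroupOf (lvZ1 L X)

/-- Second level cohomology. -/
abbrev lvH2 : Type _ := lvZ2 L X ⧸ (lvB2 L X).addSubgroupOf (lvZ2 L X)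

/-- The class of a level-constant 1-cocycle. -/
def lvH1mk : lvZ1 L X →+ lvH1 L X := QuotientAddGroup.mk' _

/-- The class of a level-constant 2-cocycle. -/
def lvH2mk : lvZ2 L X →+ lvH2 L X := QuotientAddGroup.mk' _

variable {L X}

lemma lvH1mk_surjective : Function.Surjective (lvH1mk L X) := QuotientAddGroup.mk'_surjective _
lemma lvH2mk_surjective : Function.Surjective (lvH2mk L X) := QuotientAddGroup.mk'_surjective _

lemma lvH1mk_eq_zero_iff (c : lvZ1 L X) :
    lvH1mk L X c = 0 ↔ ∃ x : X, lvD0 G X x = (c : G → X) := by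
  rw [lvH1mk, QuotientAddGroup.mk'_apply, QuotientAddGroup.eq_zero_iff,
    AddSubgroup.mem_addSubgroupOf]
  rfl

lemma lvH2mk_eq_zero_iff (c : lvZ2 L X) :
    lvH2mk L X c = 0 ↔ ∃ b : G → X, L.IsLC1 b ∧ lvD1 G X b = (c : G × G → X) := by
  rw [lvH2mk, QuotientAddGroup.mk'_apply, QuotientAddGroup.eq_zero_iff,
    AddSubgroup.mem_addSubgroupOf]
  rfl

lemma lvH1mk_eq_iff (c c' : lvZ1 L X) :
    lvH1mk L X c = lvH1mk L X c' ↔ ∃ x : X, lvD0 G X x = (c : G → X) - c' := by
  rw [← sub_eq_zero, ← map_sub, lvH1mk_eq_zero_iff]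
  rfl

lemma lvH2mk_eq_iff (c c' : lvZ2 L X) :
    lvH2mk L X c = lvH2mk L X c' ↔
      ∃ b : G → X, L.IsLC1 b ∧ lvD1 G X b = (c : G × G → X) - c' := by
  rw [← sub_eq_zero, ← map_sub, lvH2mk_eq_zero_iff]
  rfl

end Groups

section Functoriality

variable {G : Type*} [Group G] {H : Type*} [Group H]

/-- A morphism of (group, level system, module) triples, contravariant in the group. -/
structure LvMor (L : LevelSys G) (X : Type*) [AddCommGroup X] [DistribMulAction G X]
    (LH : LevelSys H) (Y : Type*) [AddCommGroup Y] [DistribMulAction H Y] where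
  f : H →* G
  φ : X →+ Y
  equivariant : ∀ (h : H) (x : X), φ (f h • x) = h • φ x
  levels : ∀ U ∈ L.levels, ∃ V ∈ LH.levels, V ≤ U.comap f

variable {L : LevelSys G} {X : Type*} [AddCommGroup X] [DistribMulAction G X]
  {LH : LevelSys H} {Y : Type*} [AddCommGroup Y] [DistribMulAction H Y]

namespace LvMor

variable (m : LvMor L X LH Y)

/-- Pull back 1-cochains. -/
def pull1 : (G → X) →+ (H → Y) where
  toFun c h := m.φ (c (m.f h))
  map_zero' := by funext h; simp
  map_add' c c' := by funext h; simp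

/-- Pull back 2-cochains. -/
def pull2 : (G × G → X) →+ (H × H → Y) where
  toFun c p := m.φ (c (m.f p.1, m.f p.2))
  map_zero' := by funext p; simp
  map_add' c c' := by funext p; simp

@[simp] lemma pull1_apply (c : G → X) (h : H) : m.pull1 c h = m.φ (c (m.f h)) := rfl
@[simp] lemma pull2_apply (c : G × G → X) (h h' : H) :
    m.pull2 c (h, h') = m.φ (c (m.f h, m.f h')) := rfl

lemma isLC1_pull1 {c : G → X} (hc : L.IsLC1 c) : LH.IsLC1 (m.pull1 c) := by
  obtain ⟨U, hU, h⟩ := hc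
  obtain ⟨V, hV, hVU⟩ := m.levels U hU
  refine ⟨V, hV, fun g s hs => ?_⟩
  simp only [pull1_apply, map_mul]
  rw [h (m.f g) (m.f s) (hVU hs)]

lemma isLC2_pull2 {c : G × G → X} (hc : L.IsLC2 c) : LH.IsLC2 (m.pull2 c) := by
  obtain ⟨U, hU, h⟩ := hc
  obtain ⟨V, hV, hVU⟩ := m.levels U hU
  refine ⟨V, hV, fun g g' s hs s' hs' => ?_⟩
  simp only [pull2_apply, map_mul]
  rw [h (m.f g) (m.f g') (m.f s) (hVU hs) (m.f s') (hVU hs')]

lemma pull1_lvD0 (x : X) : m.pull1 (lvD0 G X x) = lvD0 H Y (m.φ x) := by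
  funext h
  simp only [pull1_apply, lvD0_apply, map_sub, m.equivariant]

lemma pull2_lvD1 (c : G → X) : m.pull2 (lvD1 G X c) = lvD1 H Y (m.pull1 c) := by
  funext ⟨h, h'⟩
  simp only [pull2_apply, lvD1_apply, map_sub, map_add, m.equivariant, pull1_apply, map_mul]

lemma isCocycle₁_pull1 {c : G → X} (hc : IsCocycle₁ c) : IsCocycle₁ (m.pull1 c) := by
  rw [isCocycle₁_iff_lvD1_eq_zero] at hc ⊢
  rw [← pull2_lvD1, hc, map_zero]

lemma isCocycle₂_pull2 {c : G × G → X} (hc : IsCocycle₂ c) : IsCocycle₂ (m.pull2 c) := by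
  intro g h j
  have := congrArg m.φ (hc (m.f g) (m.f h) (m.f j))
  simp only [map_add, m.equivariant] at this
  simp only [pull2_apply, map_mul]
  exact this

/-- Pull back 1-cocycles. -/
def Z1 : lvZ1 L X →+ lvZ1 LH Y :=
  (m.pull1.comp (lvZ1 L X).subtype).codRestrict (lvZ1 LH Y)
    (fun c => ⟨m.isCocycle₁_pull1 c.2.1, m.isLC1_pull1 c.2.2⟩)

/-- Pull back 2-cocycles. -/
def Z2 : lvZ2 L X →+ lvZ2 LH Y :=
  (m.pull2.comp (lvZ2 L X).subtype).codRestrict (lvZ2 LH Y)
    (fun c => ⟨m.isCocycle₂_pull2 c.2.1, m.isLC2_pull2 c.2.2⟩)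

@[simp] lemma Z1_coe (c : lvZ1 L X) : ((m.Z1 c : lvZ1 LH Y) : H → Y) = m.pull1 c := rfl
@[simp] lemma Z2_coe (c : lvZ2 L X) : ((m.Z2 c : lvZ2 LH Y) : H × H → Y) = m.pull2 c := rfl

/-- The induced map on `H¹`. -/
def H1 : lvH1 L X →+ lvH1 LH Y :=
  QuotientAddGroup.map _ _ m.Z1 (by
    rintro c hc
    rw [AddSubgroup.mem_addSubgroupOf] at hc
    obtain ⟨x, hx⟩ := hc
    rw [AddSubgroup.mem_comap, AddSubgroup.mem_addSubgroupOf, Z1_coe, ← hx, pull1_lvD0]
    exact ⟨m.φ x, rfl⟩)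

/-- The induced map on `H²`. -/
def H2 : lvH2 L X →+ lvH2 LH Y :=
  QuotientAddGroup.map _ _ m.Z2 (by
    rintro c hc
    rw [AddSubgroup.mem_addSubgroupOf] at hc
    obtain ⟨b, hb, hbc⟩ := hc
    rw [AddSubgroup.mem_comap, AddSubgroup.mem_addSubgroupOf, Z2_coe, ← hbc, pull2_lvD1]
    exact ⟨m.pull1 b, m.isLC1_pull1 hb, rfl⟩)

@[simp] lemma H1_mk (c : lvZ1 L X) : m.H1 (lvH1mk L X c) = lvH1mk LH Y (m.Z1 c) := rfl
@[simp] lemma H2_mk (c : lvZ2 L X) : m.H2 (lvH2mk L X c) = lvH2mk LH Y (m.Z2 c) := rfl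

/-- The induced map on invariants (needs `f` surjective onto the acting group only through
equivariance: an invariant of `G` is mapped to an invariant of `H`). -/
def H0 : lvH0 (G := G) X →+ lvH0 (G := H) Y :=
  (m.φ.comp (lvH0 (G := G) X).subtype).codRestrict _ (fun x h => by
    have := m.equivariant h x.1
    rw [x.2 (m.f h)] at this
    exact this.symm)

@[simp] lemma H0_coe (x : lvH0 (G := G) X) : ((m.H0 x : lvH0 (G := H) Y) : Y) = m.φ x := rfl

end LvMor

/-- Identity morphism. -/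
def LvMor.id (L : LevelSys G) (X : Type*) [AddCommGroup X] [DistribMulAction G X] :
    LvMor L X L X where
  f := MonoidHom.id G
  φ := AddMonoidHom.id X
  equivariant := fun _ _ => rfl
  levels := fun U hU => ⟨U, hU, le_rfl⟩

/-- Coefficient morphism for a fixed group. -/
def LvMor.ofCoeff (L : LevelSys G) {X Y : Type*} [AddCommGroup X] [DistribMulAction G X]
    [AddCommGroup Y] [DistribMulAction G Y] (φ : X →+ Y) (hφ : ∀ (g : G) (x : X), φ (g • x) = g • φ x) :
    LvMor L X L Y where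
  f := MonoidHom.id G
  φ := φ
  equivariant := hφ
  levels := fun U hU => ⟨U, hU, le_rfl⟩

/-- Composition of morphisms. -/
def LvMor.comp {K : Type*} [Group K] {LK : LevelSys K} {Z : Type*} [AddCommGroup Z]
    [DistribMulAction K Z] (m' : LvMor LH Y LK Z) (m : LvMor L X LH Y) : LvMor L X LK Z where
  f := m.f.comp m'.f
  φ := m'.φ.comp m.φ
  equivariant := fun k x => by
    simp only [MonoidHom.comp_apply, AddMonoidHom.comp_apply, m.equivariant, m'.equivariant]
  levels := fun U hU => by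
    obtain ⟨V, hV, hVU⟩ := m.levels U hU
    obtain ⟨W, hW, hWV⟩ := m'.levels V hV
    exact ⟨W, hW, fun w hw => hVU (hWV hw)⟩

lemma LvMor.H1_comp {K : Type*} [Group K] {LK : LevelSys K} {Z : Type*} [AddCommGroup Z]
    [DistribMulAction K Z] (m' : LvMor LH Y LK Z) (m : LvMor L X LH Y) (x : lvH1 L X) :
    (m'.comp m).H1 x = m'.H1 (m.H1 x) := by
  obtain ⟨c, rfl⟩ := lvH1mk_surjective x
  rfl

lemma LvMor.H2_comp {K : Type*} [Group K] {LK : LevelSys K} {Z : Type*} [AddCommGroup Z]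
    [DistribMulAction K Z] (m' : LvMor LH Y LK Z) (m : LvMor L X LH Y) (x : lvH2 L X) :
    (m'.comp m).H2 x = m'.H2 (m.H2 x) := by
  obtain ⟨c, rfl⟩ := lvH2mk_surjective x
  rfl

lemma LvMor.H1_id (x : lvH1 L X) : (LvMor.id L X).H1 x = x := by
  obtain ⟨c, rfl⟩ := lvH1mk_surjective x
  rfl

lemma LvMor.H2_id (x : lvH2 L X) : (LvMor.id L X).H2 x = x := by
  obtain ⟨c, rfl⟩ := lvH2mk_surjective x
  rfl

end Functoriality

end Fermat.Agent.S55
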