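import Fermat.Agent.S55.Level.ShaSeq
import Fermat.Agent.S55.Level.Bridge
import Fermat.Agent.S55.Dual.Step1

/-!
# Locally trivial classes at finite levels (block [F] of S55)

A *local square* relates a localisation morphism `m : (G, L, X) → (H, LH, X₁)` with finite
quotients `Q` of `(G, L, X)` and `Q₁` of `(H, LH, X₁)` and a morphism `ρ` between the finite levels.
Because inflation is injective on `H¹`, a class of the finite level `Γ` is locally trivial in level
cohomology iff it is locally trivial at the finite level.  Hence `lvSha1 m` is the union of the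
inflations of the finite-level groups `lvSha1 ρ`, which are Mathlib's `ds_sha` for subgroups.
-/

set_option autoImplicit false

namespace Fermat.Agent.S55

open groupCohomology CategoryTheory

universe u₁ u₂

section Square

variable {G : Type*} [Group G] {L : LevelSys G} {X : Type*} [AddCommGroup X] [DistribMulAction G X]
  {H : Type*} [Group H] {LH : LevelSys H} {X₁ : Type*} [AddCommGroup X₁] [DistribMulAction H X₁]
  (m : LvMor L X LH X₁)
  {Γ : Type*} [Group Γ] [Finite Γ] {Y : Type*} [AddCommGroup Y] [DistribMulAction Γ Y]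
  (Q : LvQuot L X Γ Y)
  {Γ₁ : Type*} [Group Γ₁] [Finite Γ₁] {Y₁ : Type*} [AddCommGroup Y₁] [DistribMulAction Γ₁ Y₁]
  (Q₁ : LvQuot LH X₁ Γ₁ Y₁)
  (ρ : LvMor (LevelSys.trivial Γ) Y (LevelSys.trivial Γ₁) Y₁)
  (hf : ∀ h : H, Q.q (m.f h) = ρ.f (Q₁.q h)) (hφ : ∀ y : Y, m.φ (Q.φ y) = Q₁.φ (ρ.φ y))

namespace LvQuot

include hf hφ in
lemma loc_pull1 (c : Γ → Y) : m.pull1 (Q.mor.pull1 c) = Q₁.mor.pull1 (ρ.pull1 c) := by
  funext h
  simp only [LvMor.pull1_apply, mor_f, mor_φ, hf, hφ]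

include hf hφ in
lemma loc_pull2 (c : Γ × Γ → Y) : m.pull2 (Q.mor.pull2 c) = Q₁.mor.pull2 (ρ.pull2 c) := by
  funext ⟨h, h'⟩
  simp only [LvMor.pull2_apply, mor_f, mor_φ, hf, hφ]

include hf hφ in
/-- Localisation after inflation is inflation after finite-level localisation (degree 1). -/
lemma loc_H1 (y : lvH1 (LevelSys.trivial Γ) Y) : m.H1 (Q.mor.H1 y) = Q₁.mor.H1 (ρ.H1 y) := by
  obtain ⟨c, rfl⟩ := lvH1mk_surjective y
  simp only [LvMor.H1_mk]
  congr 1
  apply Subtype.ext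
  simp only [LvMor.Z1_coe]
  exact Q.loc_pull1 m Q₁ ρ hf hφ _

include hf hφ in
/-- Localisation after inflation is inflation after finite-level localisation (degree 2). -/
lemma loc_H2 (y : lvH2 (LevelSys.trivial Γ) Y) : m.H2 (Q.mor.H2 y) = Q₁.mor.H2 (ρ.H2 y) := by
  obtain ⟨c, rfl⟩ := lvH2mk_surjective y
  simp only [LvMor.H2_mk]
  congr 1
  apply Subtype.ext
  simp only [LvMor.Z2_coe]
  exact Q.loc_pull2 m Q₁ ρ hf hφ _

include hf hφ in
/-- A class of a finite level is locally trivial in level cohomology iff it is locally trivial at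
the finite level. -/
theorem loc_H1_eq_zero_iff (y : lvH1 (LevelSys.trivial Γ) Y) :
    m.H1 (Q.mor.H1 y) = 0 ↔ ρ.H1 y = 0 := by
  rw [Q.loc_H1 m Q₁ ρ hf hφ]
  constructor
  · intro h
    exact Q₁.H1_injective (h.trans (map_zero _).symm)
  · intro h
    rw [h, map_zero]

end LvQuot

end Square

section Family

variable {G : Type*} [Group G] {L : LevelSys G} {X : Type*} [AddCommGroup X] [DistribMulAction G X]
  {ι : Type*} {H : ι → Type*} [∀ i, Group (H i)] {LH : ∀ i, LevelSys (H i)}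
  {X₁ : ι → Type*} [∀ i, AddCommGroup (X₁ i)] [∀ i, DistribMulAction (H i) (X₁ i)]
  (m : ∀ i, LvMor L X (LH i) (X₁ i))
  {Γ : Type*} [Group Γ] [Finite Γ] {Y : Type*} [AddCommGroup Y] [DistribMulAction Γ Y]
  (Q : LvQuot L X Γ Y)
  {Γ₁ : ι → Type*} [∀ i, Group (Γ₁ i)] [∀ i, Finite (Γ₁ i)]
  {Y₁ : ι → Type*} [∀ i, AddCommGroup (Y₁ i)] [∀ i, DistribMulAction (Γ₁ i) (Y₁ i)]
  (Q₁ : ∀ i, LvQuot (LH i) (X₁ i) (Γ₁ i) (Y₁ i))
  (ρ : ∀ i, LvMor (LevelSys.trivial Γ) Y (LevelSys.trivial (Γ₁ i)) (Y₁ i))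
  (hf : ∀ (i : ι) (h : H i), Q.q ((m i).f h) = (ρ i).f ((Q₁ i).q h))
  (hφ : ∀ (i : ι) (y : Y), (m i).φ (Q.φ y) = (Q₁ i).φ ((ρ i).φ y))

namespace LvQuot

include hf hφ in
/-- The inflation of a finite-level class is in `lvSha1 m` iff the class is in the finite-level
`lvSha1 ρ`. -/
theorem mem_lvSha1_iff (y : lvH1 (LevelSys.trivial Γ) Y) :
    Q.mor.H1 y ∈ lvSha1 m ↔ y ∈ lvSha1 ρ := by
  rw [mem_lvSha1, mem_lvSha1]
  exact forall_congr' fun i => Q.loc_H1_eq_zero_iff (m i) (Q₁ i) (ρ i) (hf i) (hφ i) y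

/-- Inflation of locally trivial classes. -/
def shaInfl1 : lvSha1 ρ →+ lvSha1 m :=
  (Q.mor.H1.comp (lvSha1 ρ).subtype).codRestrict _
    (fun y => (Q.mem_lvSha1_iff m Q₁ ρ hf hφ y.1).2 y.2)

@[simp] lemma shaInfl1_coe (y : lvSha1 ρ) :
    ((Q.shaInfl1 m Q₁ ρ hf hφ y : lvSha1 m) : lvH1 L X) = Q.mor.H1 y := rfl

theorem shaInfl1_injective : Function.Injective (Q.shaInfl1 m Q₁ ρ hf hφ) := by
  intro y y' h
  apply Subtype.ext
  apply Q.H1_injective
  exact congrArg Subtype.val h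

include hf hφ in
/-- A locally trivial class which is inflated from the finite level `Γ` is the inflation of a
locally trivial class of `Γ`. -/
theorem exists_shaInfl1_eq {x : lvH1 L X} (hx : x ∈ lvSha1 m) (hxQ : x ∈ Q.mor.H1.range) :
    ∃ y : lvSha1 ρ, Q.mor.H1 y = x := by
  obtain ⟨y, rfl⟩ := hxQ
  exact ⟨⟨y, (Q.mem_lvSha1_iff m Q₁ ρ hf hφ y).1 hx⟩, rfl⟩

end LvQuot

end Family

section Subgroups

variable {Γ : Type*} [Group Γ] [Finite Γ] (Y : Type*) [AddCommGroup Y] [DistribMulAction Γ Y]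

/-- Restriction to a subgroup of a finite group, as a morphism of level cohomology. -/
def lvResMor (D : Subgroup Γ) : LvMor (LevelSys.trivial Γ) Y (LevelSys.trivial D) Y where
  f := D.subtype
  φ := AddMonoidHom.id Y
  equivariant := fun _ _ => rfl
  levels := by
    rintro U rfl
    exact ⟨⊥, rfl, bot_le⟩

end Subgroups

section Mathlib

variable {Γ : Type} [Group Γ] [Finite Γ] (B : Rep.{0} ℤ Γ) {Y : Type*} [AddCommGroup Y]
  [DistribMulAction Γ Y] (e : Y ≃+ B.V) (he : ∀ (g : Γ) (y : Y), e (g • y) = B.ρ g (e y))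

/-- Restriction to a subgroup in level cohomology is Mathlib's restriction (degree 1). -/
theorem lvH1Equiv_res (D : Subgroup Γ) (y : lvH1 (LevelSys.trivial Γ) Y) :
    lvH1Equiv (Rep.res D.subtype B) e (fun d y => he d y) ((lvResMor Y D).H1 y) =
      (ds_res B D 1).hom (lvH1Equiv B e he y) :=
  lvH1Equiv_map B (Rep.res D.subtype B) e he e (fun d y => he d y) (lvResMor Y D)
    (𝟙 (Rep.res D.subtype B)) (fun _ => rfl) y

/-- Restriction to a subgroup in level cohomology is Mathlib's restriction (degree 2). -/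
theorem lvH2Equiv_res (D : Subgroup Γ) (y : lvH2 (LevelSys.trivial Γ) Y) :
    lvH2Equiv (Rep.res D.subtype B) e (fun d y => he d y) ((lvResMor Y D).H2 y) =
      (ds_res B D 2).hom (lvH2Equiv B e he y) :=
  lvH2Equiv_map B (Rep.res D.subtype B) e he e (fun d y => he d y) (lvResMor Y D)
    (𝟙 (Rep.res D.subtype B)) (fun _ => rfl) y

/-- The finite-level `lvSha1` for a family of subgroups is `ds_sha` in degree 1. -/
theorem lvH1Equiv_mem_ds_sha_iff {ι : Type*} (D : ι → Subgroup Γ)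
    (y : lvH1 (LevelSys.trivial Γ) Y) :
    lvH1Equiv B e he y ∈ ds_sha D B 1 ↔ y ∈ lvSha1 (fun i => lvResMor Y (D i)) := by
  rw [ds_mem_sha, mem_lvSha1]
  refine forall_congr' fun i => ?_
  rw [← lvH1Equiv_res B e he (D i) y]
  exact (AddEquiv.map_eq_zero_iff _)

/-- The finite-level `lvSha2` for a family of subgroups is `ds_sha` in degree 2. -/
theorem lvH2Equiv_mem_ds_sha_iff {ι : Type*} (D : ι → Subgroup Γ)
    (y : lvH2 (LevelSys.trivial Γ) Y) :
    lvH2Equiv B e he y ∈ ds_sha D B 2 ↔ y ∈ lvSha2 (fun i => lvResMor Y (D i)) := by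
  rw [ds_mem_sha, mem_lvSha2]
  refine forall_congr' fun i => ?_
  rw [← lvH2Equiv_res B e he (D i) y]
  exact (AddEquiv.map_eq_zero_iff _)

/-- `lvSha1` of the restrictions to a family of subgroups is `ds_sha` (degree 1). -/
noncomputable def lvSha1EquivDs {ι : Type*} (D : ι → Subgroup Γ) :
    lvSha1 (fun i => lvResMor Y (D i)) ≃+ ds_sha D B 1 where
  toFun y := ⟨lvH1Equiv B e he y.1, (lvH1Equiv_mem_ds_sha_iff B e he D y.1).2 y.2⟩
  invFun x := ⟨(lvH1Equiv B e he).symm x.1, by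
    rw [← lvH1Equiv_mem_ds_sha_iff B e he D, AddEquiv.apply_symm_apply]
    exact x.2⟩
  left_inv y := Subtype.ext ((lvH1Equiv B e he).symm_apply_apply y.1)
  right_inv x := Subtype.ext ((lvH1Equiv B e he).apply_symm_apply x.1)
  map_add' y y' := Subtype.ext (map_add (lvH1Equiv B e he) y.1 y'.1)

/-- `lvSha2` of the restrictions to a family of subgroups is `ds_sha` (degree 2). -/
noncomputable def lvSha2EquivDs {ι : Type*} (D : ι → Subgroup Γ) :
    lvSha2 (fun i => lvResMor Y (D i)) ≃+ ds_sha D B 2 where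
  toFun y := ⟨lvH2Equiv B e he y.1, (lvH2Equiv_mem_ds_sha_iff B e he D y.1).2 y.2⟩
  invFun x := ⟨(lvH2Equiv B e he).symm x.1, by
    rw [← lvH2Equiv_mem_ds_sha_iff B e he D, AddEquiv.apply_symm_apply]
    exact x.2⟩
  left_inv y := Subtype.ext ((lvH2Equiv B e he).symm_apply_apply y.1)
  right_inv x := Subtype.ext ((lvH2Equiv B e he).apply_symm_apply x.1)
  map_add' y y' := Subtype.ext (map_add (lvH2Equiv B e he) y.1 y'.1)

end Mathlib

end Fermat.Agent.S55
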